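/-
S44 / DEPTH, block BC, node BC2 (owner helper147): `R₀[ϖ] = ⊕_{i<e} R₀ ϖ^i` for an Eisenstein `ϖ`, and
the Eisenstein datum over a vertical valuation ring of `F₀`.
-/
import Fermat.Agent.S44.Depth.BCDefs

set_option autoImplicit false

noncomputable section

namespace Fermat.Agent.S44.Depth

open Fermat.Agent.S18 Fermat.Agent.S36.BP

section Pair

variable {E₀ E : Type*} [Field E₀] [Field E] [Algebra E₀ E] {V₀ : ValuationSubring E₀} {ϖ₀ : E₀}
  {ϖ : E} {e : ℕ} {a : ℕ → E₀} {V : ValuationSubring E}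

/-- `z` is an `R₀`-combination of `1, ϖ, …, ϖ^(e-1)`. -/
private def LiftRP (ϖ : E) (e : ℕ) (R₀ : Subring E₀) (z : E) : Prop :=
  ∃ c : ℕ → E₀, (∀ i, c i ∈ R₀) ∧ z = esum ϖ e c

private theorem LiftRP.zero (R₀ : Subring E₀) : LiftRP ϖ e R₀ 0 :=
  ⟨fun _ => 0, fun _ => R₀.zero_mem, by simp [esum]⟩

private theorem LiftRP.add {R₀ : Subring E₀} {z z' : E} (h : LiftRP ϖ e R₀ z)
    (h' : LiftRP ϖ e R₀ z') : LiftRP ϖ e R₀ (z + z') := by
  obtain ⟨c, hc, rfl⟩ := h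
  obtain ⟨c', hc', rfl⟩ := h'
  refine ⟨fun i => c i + c' i, fun i => R₀.add_mem (hc i) (hc' i), ?_⟩
  simp only [esum, map_add, add_mul, Finset.sum_add_distrib]

private theorem LiftRP.neg {R₀ : Subring E₀} {z : E} (h : LiftRP ϖ e R₀ z) :
    LiftRP ϖ e R₀ (-z) := by
  obtain ⟨c, hc, rfl⟩ := h
  refine ⟨fun i => - c i, fun i => R₀.neg_mem (hc i), ?_⟩
  simp only [esum, map_neg, neg_mul, Finset.sum_neg_distrib]

private theorem LiftRP.smul {R₀ : Subring E₀} {z : E} {r : E₀} (hr : r ∈ R₀)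
    (h : LiftRP ϖ e R₀ z) : LiftRP ϖ e R₀ (algebraMap E₀ E r * z) := by
  obtain ⟨c, hc, rfl⟩ := h
  refine ⟨fun i => r * c i, fun i => R₀.mul_mem hr (hc i), ?_⟩
  simp only [esum, map_mul, Finset.mul_sum, mul_assoc]

private theorem LiftRP.sum {R₀ : Subring E₀} {ι : Type*} (s : Finset ι) (f : ι → E)
    (h : ∀ i ∈ s, LiftRP ϖ e R₀ (f i)) : LiftRP ϖ e R₀ (∑ i ∈ s, f i) := by
  classical
  induction s using Finset.induction_on with
  | empty => simpa using LiftRP.zero R₀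
  | insert i s hi ih =>
    rw [Finset.sum_insert hi]
    exact (h i (Finset.mem_insert_self i s)).add
      (ih fun j hj => h j (Finset.mem_insert_of_mem hj))

private theorem LiftRP.pow_of_lt (R₀ : Subring E₀) {i : ℕ} (hi : i < e) :
    LiftRP ϖ e R₀ (ϖ ^ i) := by
  classical
  refine ⟨fun j => if j = i then 1 else 0, fun j => ?_, ?_⟩
  · show (if j = i then (1 : E₀) else 0) ∈ R₀
    split_ifs
    · exact R₀.one_mem
    · exact R₀.zero_mem
  · rw [esum, Finset.sum_eq_single i]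
    · simp
    · intro j _ hj
      simp [hj]
    · intro h
      exact absurd (Finset.mem_range.2 hi) h

private theorem LiftRP.pow_of_le (hE : IsEis V₀ ϖ₀ ϖ e a) (R₀ : Subring E₀) (ha : ∀ i, a i ∈ R₀)
    {i : ℕ} (hi : i ≤ e) : LiftRP ϖ e R₀ (ϖ ^ i) := by
  rcases lt_or_eq_of_le hi with h | rfl
  · exact LiftRP.pow_of_lt R₀ h
  · exact ⟨a, ha, hE.eis⟩

private theorem LiftRP.mul_unif (hE : IsEis V₀ ϖ₀ ϖ e a) {R₀ : Subring E₀} (ha : ∀ i, a i ∈ R₀)
    {z : E} (h : LiftRP ϖ e R₀ z) : LiftRP ϖ e R₀ (ϖ * z) := by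
  obtain ⟨c, hc, rfl⟩ := h
  rw [esum, Finset.mul_sum]
  refine LiftRP.sum _ _ fun i hi => ?_
  have h1 : ϖ * (algebraMap E₀ E (c i) * ϖ ^ i) = algebraMap E₀ E (c i) * ϖ ^ (i + 1) := by
    rw [pow_succ]
    ring
  rw [h1]
  exact (LiftRP.pow_of_le hE R₀ ha (Nat.succ_le_of_lt (Finset.mem_range.1 hi))).smul (hc i)

private theorem LiftRP.mul_pow (hE : IsEis V₀ ϖ₀ ϖ e a) {R₀ : Subring E₀} (ha : ∀ i, a i ∈ R₀)
    {z : E} (h : LiftRP ϖ e R₀ z) (k : ℕ) : LiftRP ϖ e R₀ (ϖ ^ k * z) := by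
  induction k with
  | zero => simpa using h
  | succ k ih =>
    have h1 : ϖ ^ (k + 1) * z = ϖ * (ϖ ^ k * z) := by
      rw [pow_succ]
      ring
    rw [h1]
    exact ih.mul_unif hE ha

private theorem LiftRP.mul (hE : IsEis V₀ ϖ₀ ϖ e a) {R₀ : Subring E₀} (ha : ∀ i, a i ∈ R₀)
    {z z' : E} (h : LiftRP ϖ e R₀ z) (h' : LiftRP ϖ e R₀ z') : LiftRP ϖ e R₀ (z * z') := by
  obtain ⟨c, hc, rfl⟩ := h
  rw [esum, Finset.sum_mul]
  refine LiftRP.sum _ _ fun i _ => ?_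
  rw [mul_assoc]
  exact (h'.mul_pow hE ha i).smul (hc i)

private theorem LiftRP.one (hE : IsEis V₀ ϖ₀ ϖ e a) (R₀ : Subring E₀) : LiftRP ϖ e R₀ 1 := by
  have := LiftRP.pow_of_lt (ϖ := ϖ) R₀ hE.e_pos
  rwa [pow_zero] at this

/-- BC2 -/
theorem mem_liftR_iff (hE : IsEis V₀ ϖ₀ ϖ e a) (R₀ : Subring E₀) (ha : ∀ i, a i ∈ R₀) (z : E) :
    z ∈ liftR ϖ R₀ ↔ ∃ c : ℕ → E₀, (∀ i, c i ∈ R₀) ∧ z = esum ϖ e c := by
  constructor
  · intro hz
    show LiftRP ϖ e R₀ z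
    unfold liftR at hz
    induction hz using Subring.closure_induction with
    | mem x hx =>
      rcases hx with ⟨r, hr, rfl⟩ | hx
      · have := (LiftRP.one hE R₀).smul (r := r) hr
        rwa [mul_one] at this
      · rw [Set.mem_singleton_iff] at hx
        subst hx
        have := (LiftRP.one hE R₀).mul_unif hE ha
        rwa [mul_one] at this
    | zero => exact LiftRP.zero R₀
    | one => exact LiftRP.one hE R₀
    | add x y _ _ hx hy => exact hx.add hy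
    | neg x _ hx => exact hx.neg
    | mul x y _ _ hx hy => exact hx.mul hE ha hy
  · rintro ⟨c, hc, rfl⟩
    unfold esum liftR
    refine Subring.sum_mem _ fun i _ => Subring.mul_mem _ ?_ (Subring.pow_mem _ ?_ i)
    · exact Subring.subset_closure (Or.inl ⟨c i, hc i, rfl⟩)
    · exact Subring.subset_closure (Or.inr rfl)

end Pair

variable {K₀ K F₀ F : Type*} [Field K₀] [Field K] [Field F₀] [Field F]
  [Algebra K₀ K] [Algebra K₀ F₀] [Algebra K F] [Algebra F₀ F]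
  {A₀ : ValuationSubring K₀} {ϖ₀ : K₀} {A : ValuationSubring K} {ϖ : K} {e : ℕ} {a : ℕ → K₀}

/-- the Eisenstein datum over a vertical valuation ring of `F₀` -/
theorem BCData.isEisF (H : BCData A₀ ϖ₀ A ϖ e a F₀ F) {V₀ : ValuationSubring F₀}
    (hc : ∀ c ∈ A₀, algebraMap K₀ F₀ c ∈ V₀) :
    IsEis V₀ (algebraMap K₀ F₀ ϖ₀) (algebraMap K F ϖ) e (fun i => algebraMap K₀ F₀ (a i)) where
  e_pos := H.eisK.e_pos
  a_mem i := by
    rw [← map_div₀]
    exact hc _ (H.eisK.a_mem i)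
  a_zero := by
    rw [← map_div₀]
    have h1 := H.eisK.a_zero
    have h2 : a 0 / ϖ₀ ∈ A₀ := (A₀.valuation_le_one_iff _).1 h1.le
    have h3 : (a 0 / ϖ₀)⁻¹ ∈ A₀ := by
      rw [← A₀.valuation_le_one_iff, map_inv₀, h1, inv_one]
    have h4 := (V₀.valuation_le_one_iff _).2 (hc _ h2)
    have h5 := (V₀.valuation_le_one_iff _).2 (hc _ h3)
    rw [map_inv₀, map_inv₀] at h5
    refine le_antisymm h4 ?_
    by_contra h6
    rw [not_le] at h6
    have h0 : V₀.valuation (algebraMap K₀ F₀ (a 0 / ϖ₀)) ≠ 0 := by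
      intro h0
      rw [h0, inv_zero] at h5
      have h7 : a 0 / ϖ₀ = 0 := by
        rw [Valuation.zero_iff, map_eq_zero_iff _ (algebraMap K₀ F₀).injective] at h0
        exact h0
      rw [h7, map_zero] at h1
      exact zero_ne_one h1
    exact absurd h5 (not_le.2 ((one_lt_inv₀ (zero_lt_iff.2 h0)).2 h6))
  eis := by
    have h1 := congrArg (algebraMap K F) H.eisK.eis
    rw [map_pow] at h1
    rw [h1, esum, esum, map_sum]
    refine Finset.sum_congr rfl fun i _ => ?_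
    rw [map_mul, map_pow, H.compat]
  span := H.spanF

end Fermat.Agent.S44.Depth

end
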