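import Fermat.Agent.S44.Depth.BC.Eis
import Fermat.Agent.S44.Depth.BC.LiftR
import Fermat.Agent.S44.Depth.Abs.Rad

/-!
# S44 / DEPTH, block BC, tasks BC9 and BC9': automorphisms of `F / F₀`

* `lift_aut_trivial` : an automorphism of `F / F₀` which maps `ϖ` into `K` acts trivially on the
  residue fields of the vertical valuations and preserves `K` and its valuation.
* `lift_ramAut` : an automorphism of `F / F₀` moving `ϖ` to depth `c` is a `RamAut`.

The key point is the uniqueness of the extension of a discrete valuation along an Eisenstein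
extension (`eis_ext_unique`): `σ⁻¹ V = V` and `V ∩ K = A`.
-/

set_option autoImplicit false

noncomputable section

namespace Fermat.Agent.S44.Depth

open Fermat.Agent.S18 Fermat.Agent.S36.BP

section Pair

variable {E₀ E : Type*} [Field E₀] [Field E] [Algebra E₀ E] {V₀ : ValuationSubring E₀} {ϖ₀ : E₀}
  {ϖ : E} {e : ℕ} {a : ℕ → E₀} {V : ValuationSubring E}

/-- an automorphism of `E / E₀` preserves the unique extension `V` of `V₀` -/
private theorem aut_mem_iff (hU : IsUnif V₀ ϖ₀) (hE : IsEis V₀ ϖ₀ ϖ e a) (hV : Ext V₀ V)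
    (σ : E ≃+* E) (hσ : ∀ z : E₀, σ (algebraMap E₀ E z) = algebraMap E₀ E z) (z : E) :
    σ z ∈ V ↔ z ∈ V := by
  have h : V.comap (σ : E →+* E) = V := eis_ext_unique hU hE hV (fun w => by
    rw [ValuationSubring.mem_comap, RingEquiv.coe_toRingHom, hσ]
    exact hV w)
  conv_rhs => rw [← h]
  rfl

/-- an automorphism of `E / E₀` preserves the valuation -/
private theorem aut_val_eq (hU : IsUnif V₀ ϖ₀) (hE : IsEis V₀ ϖ₀ ϖ e a) (hV : Ext V₀ V)
    (σ : E ≃+* E) (hσ : ∀ z : E₀, σ (algebraMap E₀ E z) = algebraMap E₀ E z) (z : E) :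
    V.valuation (σ z) = V.valuation z := by
  rcases eq_or_ne z 0 with rfl | hz
  · rw [map_zero]
  have hUV : IsUnif V ϖ := eis_unif hU hE hV
  obtain ⟨n, hn⟩ := ord_exists_val hUV hz
  have hp : V.valuation ϖ ^ e = V.valuation (algebraMap E₀ E ϖ₀) := eis_val_pow hU hE hV
  have hvϖ : V.valuation ϖ ≠ 0 := ord_val_unif_ne_zero hUV
  have hvp : V.valuation (algebraMap E₀ E ϖ₀) ≠ 0 := by
    rw [← hp]; exact pow_ne_zero _ hvϖ
  have hp0 : algebraMap E₀ E ϖ₀ ≠ 0 := (Valuation.ne_zero_iff _).mp hvp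
  have hze : V.valuation z ^ e = V.valuation (algebraMap E₀ E ϖ₀) ^ n := by
    rw [hn, ← hp, ← zpow_natCast, ← zpow_natCast, ← zpow_mul, ← zpow_mul, mul_comm]
  have hw0 : z ^ e / algebraMap E₀ E ϖ₀ ^ n ≠ 0 :=
    div_ne_zero (pow_ne_zero _ hz) (zpow_ne_zero _ hp0)
  have hw : V.valuation (z ^ e / algebraMap E₀ E ϖ₀ ^ n) = 1 := by
    rw [map_div₀, map_pow, map_zpow₀, hze, div_self (zpow_ne_zero _ hvp)]
  have hw1 : z ^ e / algebraMap E₀ E ϖ₀ ^ n ∈ V := (V.valuation_le_one_iff _).mp hw.le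
  have hw2 : (z ^ e / algebraMap E₀ E ϖ₀ ^ n)⁻¹ ∈ V := by
    rw [← V.valuation_le_one_iff, map_inv₀, hw, inv_one]
  have hσw : V.valuation (σ (z ^ e / algebraMap E₀ E ϖ₀ ^ n)) = 1 := by
    refine ord_val_eq_one ((map_ne_zero σ).mpr hw0) ((aut_mem_iff hU hE hV σ hσ _).mpr hw1) ?_
    rw [← map_inv₀]
    exact (aut_mem_iff hU hE hV σ hσ _).mpr hw2
  rw [map_div₀, map_pow, map_zpow₀, hσ, map_div₀, map_pow, map_zpow₀,
    div_eq_one_iff_eq (zpow_ne_zero _ hvp), ← hze] at hσw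
  exact (pow_left_inj₀ zero_le zero_le hE.e_pos.ne').mp hσw

end Pair

variable {K₀ K F₀ F : Type*} [Field K₀] [Field K] [Field F₀] [Field F]
  [Algebra K₀ K] [Algebra K₀ F₀] [Algebra K F] [Algebra F₀ F]
  {A₀ : ValuationSubring K₀} {ϖ₀ : K₀} {A : ValuationSubring K} {ϖ : K} {e : ℕ} {a : ℕ → K₀}

/-- `V₀ ∩ K₀ = A₀` -/
private theorem aut_const_mem_iff (hA₀ : IsUnif A₀ ϖ₀) {V₀ : ValuationSubring F₀}
    (hU : IsUnif V₀ (algebraMap K₀ F₀ ϖ₀)) (hc : ∀ c ∈ A₀, algebraMap K₀ F₀ c ∈ V₀) (c : K₀) :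
    algebraMap K₀ F₀ c ∈ V₀ ↔ c ∈ A₀ := by
  refine ⟨fun h => ?_, hc c⟩
  by_contra hcA
  have hc0 : c ≠ 0 := by
    rintro rfl
    exact hcA A₀.zero_mem
  have h1 : A₀.valuation c⁻¹ < 1 := by
    rw [← A₀.valuation_le_one_iff, not_le] at hcA
    rw [map_inv₀]
    exact inv_lt_one_of_one_lt₀ hcA
  have h2 := NodalModel.val_const_lt_one_of hA₀ hU hc h1
  rw [map_inv₀, map_inv₀] at h2
  have h3 := (V₀.valuation_le_one_iff _).mpr h
  have h4 : V₀.valuation (algebraMap K₀ F₀ c) ≠ 0 :=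
    (Valuation.ne_zero_iff _).mpr ((map_ne_zero _).mpr hc0)
  exact absurd h3 (not_le.mpr ((inv_lt_one₀ (zero_lt_iff.mpr h4)).mp h2))

/-- `V ∩ K = A` -/
private theorem aut_comap_eq (H : BCData A₀ ϖ₀ A ϖ e a F₀ F) {V₀ : ValuationSubring F₀}
    {V : ValuationSubring F} (hU : IsUnif V₀ (algebraMap K₀ F₀ ϖ₀)) (hext : Ext V₀ V)
    (hc : ∀ c ∈ A₀, algebraMap K₀ F₀ c ∈ V₀) : V.comap (algebraMap K F) = A := by
  refine eis_ext_unique H.unif₀ H.eisK H.extA (fun c => ?_)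
  rw [ValuationSubring.mem_comap, H.compat, hext]
  exact aut_const_mem_iff H.unif₀ hU hc c

private theorem aut_mem_iff_K (H : BCData A₀ ϖ₀ A ϖ e a F₀ F) {V₀ : ValuationSubring F₀}
    {V : ValuationSubring F} (hU : IsUnif V₀ (algebraMap K₀ F₀ ϖ₀)) (hext : Ext V₀ V)
    (hc : ∀ c ∈ A₀, algebraMap K₀ F₀ c ∈ V₀) (b : K) : algebraMap K F b ∈ V ↔ b ∈ A := by
  conv_rhs => rw [← aut_comap_eq H hU hext hc]
  rfl

/-- the valuations of `V` and `A` are compatible -/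
private theorem aut_val_eq_K (H : BCData A₀ ϖ₀ A ϖ e a F₀ F) {V₀ : ValuationSubring F₀}
    {V : ValuationSubring F} (hU : IsUnif V₀ (algebraMap K₀ F₀ ϖ₀)) (hext : Ext V₀ V)
    (hc : ∀ c ∈ A₀, algebraMap K₀ F₀ c ∈ V₀) {b b' : K}
    (h : V.valuation (algebraMap K F b') = V.valuation (algebraMap K F b)) :
    A.valuation b' = A.valuation b := by
  rcases eq_or_ne b 0 with rfl | hb
  · rw [map_zero, map_zero, Valuation.zero_iff, map_eq_zero] at h
    rw [h]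
  have hvb : V.valuation (algebraMap K F b) ≠ 0 :=
    (Valuation.ne_zero_iff _).mpr ((map_ne_zero _).mpr hb)
  have hb' : b' ≠ 0 := by
    rintro rfl
    rw [map_zero, map_zero] at h
    exact hvb h.symm
  have h1 : V.valuation (algebraMap K F (b' / b)) = 1 := by
    rw [map_div₀, map_div₀, h, div_self hvb]
  have h2 : b' / b ∈ A :=
    (aut_mem_iff_K H hU hext hc _).mp ((V.valuation_le_one_iff _).mp h1.le)
  have h3 : (b' / b)⁻¹ ∈ A := by
    refine (aut_mem_iff_K H hU hext hc _).mp ((V.valuation_le_one_iff _).mp ?_)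
    rw [map_inv₀, map_inv₀, h1, inv_one]
  have h4 := ord_val_eq_one (div_ne_zero hb' hb) h2 h3
  rwa [map_div₀, div_eq_one_iff_eq ((Valuation.ne_zero_iff _).mpr hb)] at h4

/-- the image of an `esum` over `K₀` in `F` -/
private theorem aut_map_esum (H : BCData A₀ ϖ₀ A ϖ e a F₀ F) (t : K) (c : ℕ → K₀) :
    algebraMap K F (esum t e c) = esum (algebraMap K F t) e (fun i => algebraMap K₀ F₀ (c i)) := by
  unfold esum
  rw [map_sum]
  refine Finset.sum_congr rfl fun i _ => ?_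
  rw [map_mul, map_pow, H.compat]

/-- the image of an `esum` under an automorphism of `F / F₀` -/
private theorem aut_apply_esum (σ : F ≃+* F)
    (hσ : ∀ z : F₀, σ (algebraMap F₀ F z) = algebraMap F₀ F z) (t : F) (c : ℕ → F₀) :
    σ (esum t e c) = esum (σ t) e c := by
  unfold esum
  rw [map_sum]
  refine Finset.sum_congr rfl fun i _ => ?_
  rw [map_mul, map_pow, hσ]

/-- BC9': an automorphism of `F / F₀` acts trivially on the residue fields. -/
theorem lift_aut_trivial (H : BCData A₀ ϖ₀ A ϖ e a F₀ F) {V₀ : ValuationSubring F₀}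
    {V : ValuationSubring F} (hU : IsUnif V₀ (algebraMap K₀ F₀ ϖ₀)) (hext : Ext V₀ V)
    (hc : ∀ c ∈ A₀, algebraMap K₀ F₀ c ∈ V₀)
    (σ : F ≃+* F) (hσ : ∀ z : F₀, σ (algebraMap F₀ F z) = algebraMap F₀ F z)
    (hσϖ : ∃ ϖ' : K, σ (algebraMap K F ϖ) = algebraMap K F ϖ') :
    (∀ z ∈ V, V.valuation (σ z - z) < 1) ∧
      ∀ b : K, ∃ b' : K, σ (algebraMap K F b) = algebraMap K F b' ∧
        A.valuation b' = A.valuation b := by
  have hE := H.isEisF hc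
  have hUV : IsUnif V (algebraMap K F ϖ) := eis_unif hU hE hext
  have hϖ1 : V.valuation (algebraMap K F ϖ) < 1 := valuation_lt_one_of_isUnif hUV
  have hσ1 : V.valuation (σ (algebraMap K F ϖ)) < 1 := by
    rw [aut_val_eq hU hE hext σ hσ]; exact hϖ1
  refine ⟨fun z hz => ?_, fun b => ?_⟩
  · obtain ⟨c, rfl⟩ := H.spanF z
    have hcV := (eis_mem_iff hU hE hext c).mp hz
    rw [aut_apply_esum σ hσ]
    unfold esum
    rw [← Finset.sum_sub_distrib]
    refine Valuation.map_sum_lt _ one_ne_zero fun i hi => ?_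
    rw [← mul_sub, map_mul]
    have h1 : V.valuation (algebraMap F₀ F (c i)) ≤ 1 :=
      (V.valuation_le_one_iff _).mpr ((hext _).mpr (hcV i (Finset.mem_range.mp hi)))
    have h2 : V.valuation (σ (algebraMap K F ϖ) ^ i - algebraMap K F ϖ ^ i) < 1 := by
      refine valuation_pow_sub_pow_lt V hσ1.le hϖ1.le ?_ i
      exact lt_of_le_of_lt (Valuation.map_sub _ _ _) (max_lt hσ1 hϖ1)
    rw [mul_comm]
    exact mul_lt_one_of_lt_of_le h2 h1
  · obtain ⟨ϖ', hϖ'⟩ := hσϖ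
    obtain ⟨c, rfl⟩ := H.eisK.span b
    have e1 : σ (algebraMap K F (esum ϖ e c)) = algebraMap K F (esum ϖ' e c) := by
      rw [aut_map_esum H, aut_apply_esum σ hσ, hϖ', aut_map_esum H]
    refine ⟨esum ϖ' e c, e1, aut_val_eq_K H hU hext hc ?_⟩
    rw [← e1, aut_val_eq hU hE hext σ hσ]

/-- the depth estimate: `τ z - z ∈ ϖ ^ (c + 1) V` for `z ∈ V` -/
private theorem aut_depth (H : BCData A₀ ϖ₀ A ϖ e a F₀ F) {V₀ : ValuationSubring F₀}
    {V : ValuationSubring F} (hU : IsUnif V₀ (algebraMap K₀ F₀ ϖ₀)) (hext : Ext V₀ V)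
    (hc₀ : ∀ c ∈ A₀, algebraMap K₀ F₀ c ∈ V₀)
    (τ : F ≃+* F) (hτ : ∀ z : F₀, τ (algebraMap F₀ F z) = algebraMap F₀ F z) {δ : K} {c : ℕ}
    (hτϖ : τ (algebraMap K F ϖ) = algebraMap K F (ϖ * (1 + δ)))
    (hδ : A.valuation δ = A.valuation ϖ ^ c) (z : F) (hz : z ∈ V) :
    Dp V (algebraMap K F ϖ) (c + 1) (τ z - z) := by
  have hE := H.isEisF hc₀
  have hUV : IsUnif V (algebraMap K F ϖ) := eis_unif hU hE hext
  have hUA : IsUnif A ϖ := eis_unif H.unif₀ H.eisK H.extA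
  have hϖ0 : algebraMap K F ϖ ≠ 0 := hUV.ne_zero
  have hϖK : ϖ ≠ 0 := hUA.ne_zero
  -- `δ / ϖ ^ c ∈ V`, `δ ∈ V`
  have hδ1 : algebraMap K F δ / algebraMap K F ϖ ^ c ∈ V := by
    rw [← map_pow, ← map_div₀, aut_mem_iff_K H hU hext hc₀, ← A.valuation_le_one_iff, map_div₀,
      map_pow, hδ, div_self (pow_ne_zero _ ((Valuation.ne_zero_iff _).mpr hϖK))]
  have hδ2 : algebraMap K F δ ∈ V := hUV.mem_of_div_pow hδ1
  obtain ⟨d, rfl⟩ := H.spanF z
  have hdV := (eis_mem_iff hU hE hext d).mp hz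
  rw [aut_apply_esum τ hτ, hτϖ]
  unfold esum Dp
  rw [← Finset.sum_sub_distrib, Finset.sum_div]
  refine V.toSubring.sum_mem fun i hi => ?_
  have hdi : algebraMap F₀ F (d i) ∈ V := (hext _).mpr (hdV i (Finset.mem_range.mp hi))
  rcases Nat.eq_zero_or_pos i with rfl | hi0
  · rw [pow_zero, pow_zero, sub_self, zero_div]
    exact V.zero_mem
  obtain ⟨j, rfl⟩ : ∃ j, i = j + 1 := ⟨i - 1, by omega⟩
  have hgeom := geom_sum_mul (1 + algebraMap K F δ) (j + 1)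
  rw [add_sub_cancel_left] at hgeom
  have key : (algebraMap F₀ F (d (j + 1)) * algebraMap K F (ϖ * (1 + δ)) ^ (j + 1) -
      algebraMap F₀ F (d (j + 1)) * algebraMap K F ϖ ^ (j + 1)) / algebraMap K F ϖ ^ (c + 1) =
      algebraMap F₀ F (d (j + 1)) * algebraMap K F ϖ ^ j *
        (∑ k ∈ Finset.range (j + 1), (1 + algebraMap K F δ) ^ k) *
        (algebraMap K F δ / algebraMap K F ϖ ^ c) := by
    rw [map_mul, map_add, map_one, mul_pow, ← mul_sub, ← mul_sub_one, ← hgeom]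
    field_simp
    ring
  rw [key]
  refine V.mul_mem _ _ (V.mul_mem _ _ (V.mul_mem _ _ hdi (V.pow_mem hUV.mem _)) ?_) hδ1
  exact V.toSubring.sum_mem fun k _ => V.pow_mem (V.add_mem _ _ V.one_mem hδ2) _

/-- `τ` preserves `R₀[ϖ]` -/
private theorem aut_liftR (H : BCData A₀ ϖ₀ A ϖ e a F₀ F) {R₀ : Subring F₀} (hR₀ : IsPt A₀ R₀)
    (τ : F ≃+* F) (hτ : ∀ z : F₀, τ (algebraMap F₀ F z) = algebraMap F₀ F z) {δ : K}
    (hτϖ : τ (algebraMap K F ϖ) = algebraMap K F (ϖ * (1 + δ))) (hδ : δ ∈ A)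
    (r : F) (hr : r ∈ liftR (algebraMap K F ϖ) R₀) : τ r ∈ liftR (algebraMap K F ϖ) R₀ := by
  have hgen : ∀ z ∈ R₀, algebraMap F₀ F z ∈ liftR (algebraMap K F ϖ) R₀ := fun z hz =>
    Subring.subset_closure (Or.inl ⟨z, hz, rfl⟩)
  have hϖ : algebraMap K F ϖ ∈ liftR (algebraMap K F ϖ) R₀ :=
    Subring.subset_closure (Or.inr rfl)
  have hδR : algebraMap K F δ ∈ liftR (algebraMap K F ϖ) R₀ := by
    obtain ⟨d, rfl⟩ := H.eisK.span δ
    have hd := (eis_mem_iff H.unif₀ H.eisK H.extA d).mp hδ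
    rw [aut_map_esum H]
    unfold esum
    refine Subring.sum_mem _ fun i hi => ?_
    exact Subring.mul_mem _ (hgen _ (hR₀.const_mem _ (hd i (Finset.mem_range.mp hi))))
      (Subring.pow_mem _ hϖ _)
  unfold liftR at hr
  induction hr using Subring.closure_induction with
  | mem y hy =>
    rcases hy with ⟨z, hz, rfl⟩ | hy
    · simp only [hτ]
      exact hgen z hz
    · rw [Set.mem_singleton_iff] at hy
      rw [hy, hτϖ, map_mul, map_add, map_one]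
      exact Subring.mul_mem _ hϖ (Subring.add_mem _ (Subring.one_mem _) hδR)
  | zero => rw [map_zero]; exact Subring.zero_mem _
  | one => rw [map_one]; exact Subring.one_mem _
  | add y z _ _ hy hz => rw [map_add]; exact Subring.add_mem _ hy hz
  | neg y _ hy => rw [map_neg]; exact Subring.neg_mem _ hy
  | mul y z _ _ hy hz => rw [map_mul]; exact Subring.mul_mem _ hy hz

variable {Vi₀ V0₀ : ValuationSubring F₀} {Vi V0 : ValuationSubring F} {x₀ y₀ : F₀}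
  {Smi₀ Sm0₀ Nd₀ : Set (Subring F₀)} {e₀ : ℕ}

/-- BC9: an automorphism of `F / F₀` moving `ϖ` to depth `c` is a `RamAut`. -/
theorem lift_ramAut (H : BCData A₀ ϖ₀ A ϖ e a F₀ F)
    (M₀ : NodalModel A₀ ϖ₀ e₀ Vi₀ V0₀ x₀ y₀ Smi₀ Sm0₀ Nd₀) (hi : Ext Vi₀ Vi) (h0 : Ext V0₀ V0)
    (τ : F ≃+* F) (hτ : ∀ z : F₀, τ (algebraMap F₀ F z) = algebraMap F₀ F z) {δ : K} {c : ℕ}
    (hc : 1 ≤ c) (hτϖ : τ (algebraMap K F ϖ) = algebraMap K F (ϖ * (1 + δ)))
    (hδ : A.valuation δ = A.valuation ϖ ^ c) :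
    RamAut A ϖ Vi V0 (algebraMap F₀ F x₀)
      (liftR (algebraMap K F ϖ) '' Smi₀ ∪ liftR (algebraMap K F ϖ) '' Sm0₀ ∪
        liftR (algebraMap K F ϖ) '' Nd₀) τ δ c := by
  have hUA : IsUnif A ϖ := eis_unif H.unif₀ H.eisK H.extA
  have hδA : δ ∈ A := by
    rw [← A.valuation_le_one_iff, hδ]
    exact pow_le_one₀ zero_le ((A.valuation_le_one_iff _).mpr hUA.mem)
  refine ⟨hc, hτϖ, hδ, ?_, hτ x₀, ?_, ?_, ?_⟩
  · exact (lift_aut_trivial H M₀.unifi hi M₀.consti τ hτ ⟨_, hτϖ⟩).2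
  · exact aut_depth H M₀.unifi hi M₀.consti τ hτ hτϖ hδ
  · exact aut_depth H M₀.unif0 h0 M₀.const0 τ hτ hτϖ hδ
  · rintro R ((⟨R₀, hR₀, rfl⟩ | ⟨R₀, hR₀, rfl⟩) | ⟨R₀, hR₀, rfl⟩) r hr
    · exact aut_liftR H (M₀.smi R₀ hR₀).isPt τ hτ hτϖ hδA r hr
    · exact aut_liftR H (M₀.sm0 R₀ hR₀).isPt τ hτ hτϖ hδA r hr
    · exact aut_liftR H (M₀.nd R₀ hR₀).isPt τ hτ hτϖ hδA r hr

end Fermat.Agent.S44.Depth

end
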