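/-
S44 / DEPTH, block BC, node BC1 (owner helper162): Eisenstein extensions of discrete valuation
rings, valuation-theoretic form.
-/
import Fermat.Agent.S44.Depth.BCDefs

set_option autoImplicit false

noncomputable section

namespace Fermat.Agent.S44.Depth

open Fermat.Agent.S18 Fermat.Agent.S36.BP

/-! ### auxiliary lemmas on one valuation ring -/

section Aux

variable {E : Type*} [Field E] {V : ValuationSubring E}

private theorem eisAux_val_eq_one {x : E} (h0 : x ≠ 0) (h : x ∈ V) (h' : x⁻¹ ∈ V) :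
    V.valuation x = 1 := by
  have h1 : V.valuation x ≤ 1 := (V.valuation_le_one_iff x).mpr h
  have h2 : V.valuation x⁻¹ ≤ 1 := (V.valuation_le_one_iff _).mpr h'
  have h3 : V.valuation x ≠ 0 := (V.valuation.ne_zero_iff).mpr h0
  rw [map_inv₀, inv_le_one₀ (zero_lt_iff.mpr h3)] at h2
  exact le_antisymm h1 h2

private theorem eisAux_val_lt_one_iff {x : E} (h0 : x ≠ 0) : V.valuation x < 1 ↔ x⁻¹ ∉ V := by
  have h3 : V.valuation x ≠ 0 := (V.valuation.ne_zero_iff).mpr h0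
  rw [← V.valuation_le_one_iff, map_inv₀, inv_le_one₀ (zero_lt_iff.mpr h3), not_le]

/-- a finite sum whose nonzero terms have pairwise distinct valuations. -/
private theorem eisAux_sum {ι : Type*} (s : Finset ι) (hs : s.Nonempty) (x : ι → E)
    (hd : ∀ i ∈ s, ∀ j ∈ s, i ≠ j → x i ≠ 0 → V.valuation (x i) ≠ V.valuation (x j)) :
    ∃ m ∈ s, V.valuation (∑ j ∈ s, x j) = V.valuation (x m) ∧
      ∀ i ∈ s, V.valuation (x i) ≤ V.valuation (x m) := by
  classical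
  obtain ⟨m, hm, hmax⟩ := s.exists_max_image (fun j => V.valuation (x j)) hs
  refine ⟨m, hm, ?_, hmax⟩
  by_cases hx : x m = 0
  · have hall : ∀ j ∈ s, x j = 0 := by
      intro j hj
      have h1 := hmax j hj
      rw [hx, map_zero] at h1
      exact (V.valuation.zero_iff).mp (le_antisymm h1 zero_le)
    rw [Finset.sum_eq_zero hall, hx]
  · have hne : V.valuation (x m) ≠ 0 := (V.valuation.ne_zero_iff).mpr hx
    rw [← Finset.add_sum_erase s x hm]
    apply Valuation.map_add_eq_of_lt_left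
    apply Valuation.map_sum_lt _ hne
    intro j hj
    have hjs := Finset.mem_of_mem_erase hj
    have hjm : j ≠ m := Finset.ne_of_mem_erase hj
    exact lt_of_le_of_ne (hmax j hjs) (fun h => hd m hm j hjs hjm.symm hx h.symm)

end Aux

section Pair

variable {E₀ E : Type*} [Field E₀] [Field E] [Algebra E₀ E] {V₀ : ValuationSubring E₀} {ϖ₀ : E₀}
  {ϖ : E} {e : ℕ} {a : ℕ → E₀} {V : ValuationSubring E}

private theorem eisAux_unif_ne_zero (hU : IsUnif V₀ ϖ₀) : ϖ₀ ≠ 0 := by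
  intro h0
  apply hU.inv_notMem
  rw [h0, inv_zero]
  exact V₀.zero_mem

private theorem eisAux_le_iff (hV : Ext V₀ V) (z : E₀) :
    V.valuation (algebraMap E₀ E z) ≤ 1 ↔ z ∈ V₀ := by
  rw [V.valuation_le_one_iff]
  exact hV z

private theorem eisAux_lt_iff (hV : Ext V₀ V) (z : E₀) :
    V.valuation (algebraMap E₀ E z) < 1 ↔ V₀.valuation z < 1 := by
  by_cases hz : z = 0
  · simp [hz]
  · have hz' : algebraMap E₀ E z ≠ 0 := (map_ne_zero _).mpr hz
    rw [eisAux_val_lt_one_iff hz', eisAux_val_lt_one_iff hz, ← map_inv₀, hV]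

private theorem eisAux_pi (hU : IsUnif V₀ ϖ₀) (hV : Ext V₀ V) :
    0 < V.valuation (algebraMap E₀ E ϖ₀) ∧ V.valuation (algebraMap E₀ E ϖ₀) < 1 := by
  have h0 := eisAux_unif_ne_zero hU
  refine ⟨zero_lt_iff.mpr ((V.valuation.ne_zero_iff).mpr ((map_ne_zero _).mpr h0)), ?_⟩
  rw [eisAux_lt_iff hV, eisAux_val_lt_one_iff h0]
  exact hU.inv_notMem

/-- the valuation of a nonzero element of `E₀`. -/
private theorem eisAux_exists_zpow (hU : IsUnif V₀ ϖ₀) (hV : Ext V₀ V) {c : E₀} (hc : c ≠ 0) :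
    ∃ n : ℤ, V.valuation (algebraMap E₀ E c) = V.valuation (algebraMap E₀ E ϖ₀) ^ n := by
  have h0 := eisAux_unif_ne_zero hU
  obtain ⟨n, h1, h2⟩ := hU.exists_zpow c hc
  refine ⟨n, ?_⟩
  have hu0 : c / ϖ₀ ^ n ≠ 0 := div_ne_zero hc (zpow_ne_zero _ h0)
  have h3 : V.valuation (algebraMap E₀ E (c / ϖ₀ ^ n)) = 1 :=
    eisAux_val_eq_one ((map_ne_zero _).mpr hu0) ((hV _).mpr h1)
      (by rw [← map_inv₀]; exact (hV _).mpr h2)
  have h4 : c = c / ϖ₀ ^ n * ϖ₀ ^ n := by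
    rw [div_mul_cancel₀ _ (zpow_ne_zero _ h0)]
  conv_lhs => rw [h4]
  rw [map_mul, map_mul, h3, one_mul, map_zpow₀, map_zpow₀]

theorem eis_val_pow (hU : IsUnif V₀ ϖ₀) (hE : IsEis V₀ ϖ₀ ϖ e a) (hV : Ext V₀ V) :
    V.valuation ϖ ^ e = V.valuation (algebraMap E₀ E ϖ₀) := by
  have h0 := eisAux_unif_ne_zero hU
  obtain ⟨hπ0, hπ1⟩ := eisAux_pi hU hV
  set π := V.valuation (algebraMap E₀ E ϖ₀) with hπ
  set γ := V.valuation ϖ with hγ
  have ha : ∀ i, V.valuation (algebraMap E₀ E (a i)) ≤ π := by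
    intro i
    have h1 : V.valuation (algebraMap E₀ E (a i / ϖ₀)) ≤ 1 := (eisAux_le_iff hV _).mpr (hE.a_mem i)
    have h2 : a i = a i / ϖ₀ * ϖ₀ := by rw [div_mul_cancel₀ _ h0]
    rw [h2, map_mul, map_mul]
    exact mul_le_of_le_one_left' h1
  have ha0 : V.valuation (algebraMap E₀ E (a 0)) = π := by
    have hne : a 0 / ϖ₀ ≠ 0 := by
      intro h
      have := hE.a_zero
      rw [h, map_zero] at this
      exact zero_ne_one this
    have hm : a 0 / ϖ₀ ∈ V₀ := hE.a_mem 0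
    have hm' : (a 0 / ϖ₀)⁻¹ ∈ V₀ := by
      rw [← V₀.valuation_le_one_iff, map_inv₀, hE.a_zero, inv_one]
    have h1 : V.valuation (algebraMap E₀ E (a 0 / ϖ₀)) = 1 :=
      eisAux_val_eq_one ((map_ne_zero _).mpr hne) ((hV _).mpr hm)
        (by rw [← map_inv₀]; exact (hV _).mpr hm')
    have h2 : a 0 = a 0 / ϖ₀ * ϖ₀ := by rw [div_mul_cancel₀ _ h0]
    rw [h2, map_mul, map_mul, h1, one_mul]
  have heq : γ ^ e = V.valuation (esum ϖ e a) := by rw [← hE.eis, map_pow]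
  have hγ1 : γ < 1 := by
    by_contra hge
    rw [not_lt] at hge
    have hγ0 : 0 < γ := lt_of_lt_of_le zero_lt_one hge
    have hlt : V.valuation (esum ϖ e a) < γ ^ e := by
      apply Valuation.map_sum_lt _ (pow_ne_zero _ hγ0.ne')
      intro i hi
      rw [Finset.mem_range] at hi
      rw [map_mul, map_pow]
      calc V.valuation (algebraMap E₀ E (a i)) * γ ^ i ≤ π * γ ^ i :=
            mul_le_mul' (ha i) le_rfl
        _ < 1 * γ ^ i := by
            exact mul_lt_mul_of_pos_right hπ1 (pow_pos hγ0 i)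
        _ = γ ^ i := one_mul _
        _ ≤ γ ^ e := pow_le_pow_right₀ hge hi.le
    exact absurd heq hlt.ne'
  obtain ⟨e', rfl⟩ : ∃ e', e = e' + 1 := ⟨e - 1, by have := hE.e_pos; omega⟩
  rw [heq, esum, Finset.sum_range_succ', pow_zero, mul_one]
  rw [← ha0]
  apply Valuation.map_add_eq_of_lt_right
  rw [ha0]
  apply Valuation.map_sum_lt _ hπ0.ne'
  intro i _
  rw [map_mul, map_pow]
  calc V.valuation (algebraMap E₀ E (a (i + 1))) * γ ^ (i + 1) ≤ π * γ ^ (i + 1) :=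
        mul_le_mul' (ha _) le_rfl
    _ < π * 1 := by
        exact mul_lt_mul_of_pos_left (pow_lt_one₀ zero_le hγ1 (Nat.succ_ne_zero i)) hπ0
    _ = π := mul_one _

private theorem eisAux_gamma (hU : IsUnif V₀ ϖ₀) (hE : IsEis V₀ ϖ₀ ϖ e a) (hV : Ext V₀ V) :
    0 < V.valuation ϖ ∧ V.valuation ϖ < 1 := by
  obtain ⟨hπ0, hπ1⟩ := eisAux_pi hU hV
  have h := eis_val_pow hU hE hV
  constructor
  · rw [zero_lt_iff]
    intro h0
    rw [h0, zero_pow hE.e_pos.ne'] at h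
    exact hπ0.ne h
  · by_contra hge
    rw [not_lt] at hge
    have := one_le_pow₀ (n := e) hge
    rw [h] at this
    exact absurd hπ1 (not_lt.mpr this)

private theorem eisAux_unif'_ne_zero (hU : IsUnif V₀ ϖ₀) (hE : IsEis V₀ ϖ₀ ϖ e a) (hV : Ext V₀ V) :
    ϖ ≠ 0 :=
  (V.valuation.ne_zero_iff).mp (eisAux_gamma hU hE hV).1.ne'

/-- the valuation of a nonzero term `c ϖ^i`. -/
private theorem eisAux_term (hU : IsUnif V₀ ϖ₀) (hE : IsEis V₀ ϖ₀ ϖ e a) (hV : Ext V₀ V) {c : E₀}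
    (hc : c ≠ 0) (i : ℕ) :
    ∃ n : ℤ, V.valuation (algebraMap E₀ E c * ϖ ^ i) = V.valuation ϖ ^ ((e : ℤ) * n + i) ∧
      (c ∈ V₀ ↔ 0 ≤ n) := by
  obtain ⟨hπ0, hπ1⟩ := eisAux_pi hU hV
  obtain ⟨hγ0, -⟩ := eisAux_gamma hU hE hV
  obtain ⟨n, hn⟩ := eisAux_exists_zpow hU hV hc
  refine ⟨n, ?_, ?_⟩
  · rw [map_mul, map_pow, hn, ← eis_val_pow hU hE hV, zpow_add₀ hγ0.ne', zpow_mul, zpow_natCast,
      zpow_natCast]
  · rw [← eisAux_le_iff hV, hn, zpow_le_one_iff_right_of_lt_one₀ hπ0 hπ1]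

private theorem eisAux_int {e i j : ℕ} {n n' : ℤ} (hi : i < e) (hj : j < e)
    (h : (e : ℤ) * n + i = (e : ℤ) * n' + j) : i = j := by
  have h1 : ((e : ℤ) * n + i) % (e : ℤ) = ((e : ℤ) * n' + j) % (e : ℤ) := by rw [h]
  rw [add_comm, Int.add_mul_emod_self_left, add_comm, Int.add_mul_emod_self_left,
    Int.emod_eq_of_lt (by positivity) (by exact_mod_cast hi),
    Int.emod_eq_of_lt (by positivity) (by exact_mod_cast hj)] at h1
  exact_mod_cast h1

private theorem eisAux_int_nonneg {e i : ℕ} {n : ℤ} (hi : i < e) (h : 0 ≤ (e : ℤ) * n + i) :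
    0 ≤ n := by
  by_contra hn
  have h1 : (e : ℤ) * n ≤ (e : ℤ) * (-1) :=
    mul_le_mul_of_nonneg_left (by omega) (by positivity)
  have h2 : (i : ℤ) < e := by exact_mod_cast hi
  omega

/-- the valuation of `esum ϖ e c` is the maximum of the valuations of the terms. -/
private theorem eisAux_key (hU : IsUnif V₀ ϖ₀) (hE : IsEis V₀ ϖ₀ ϖ e a) (hV : Ext V₀ V)
    (c : ℕ → E₀) :
    ∃ m < e, V.valuation (esum ϖ e c) = V.valuation (algebraMap E₀ E (c m) * ϖ ^ m) ∧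
      ∀ i < e, V.valuation (algebraMap E₀ E (c i) * ϖ ^ i) ≤
        V.valuation (algebraMap E₀ E (c m) * ϖ ^ m) := by
  obtain ⟨hγ0, hγ1⟩ := eisAux_gamma hU hE hV
  have hϖ := eisAux_unif'_ne_zero hU hE hV
  obtain ⟨m, hm, h1, h2⟩ := eisAux_sum (V := V) (Finset.range e)
    ⟨0, Finset.mem_range.mpr hE.e_pos⟩ (fun i => algebraMap E₀ E (c i) * ϖ ^ i) (by
      intro i hi j hj hij hne heq
      rw [Finset.mem_range] at hi hj
      have hci : c i ≠ 0 := by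
        rintro h
        rw [h, map_zero, zero_mul] at hne
        exact hne rfl
      by_cases hcj : c j = 0
      · rw [hcj, map_zero, zero_mul, map_zero] at heq
        exact hne ((V.valuation.zero_iff).mp heq)
      · obtain ⟨n, hn, -⟩ := eisAux_term hU hE hV hci i
        obtain ⟨n', hn', -⟩ := eisAux_term hU hE hV hcj j
        rw [hn, hn'] at heq
        exact hij (eisAux_int hi hj (zpow_right_injective₀ hγ0 hγ1.ne heq)))
  exact ⟨m, Finset.mem_range.mp hm, h1, fun i hi => h2 i (Finset.mem_range.mpr hi)⟩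

private theorem eisAux_mem_of_term_le (hU : IsUnif V₀ ϖ₀) (hE : IsEis V₀ ϖ₀ ϖ e a) (hV : Ext V₀ V)
    {c : E₀} {i : ℕ} (hi : i < e) (h : V.valuation (algebraMap E₀ E c * ϖ ^ i) ≤ 1) : c ∈ V₀ := by
  obtain ⟨hγ0, hγ1⟩ := eisAux_gamma hU hE hV
  by_cases hc : c = 0
  · rw [hc]; exact V₀.zero_mem
  · obtain ⟨n, hn, hmem⟩ := eisAux_term hU hE hV hc i
    rw [hn, zpow_le_one_iff_right_of_lt_one₀ hγ0 hγ1] at h
    exact hmem.mpr (eisAux_int_nonneg hi h)

theorem eis_mem_iff (hU : IsUnif V₀ ϖ₀) (hE : IsEis V₀ ϖ₀ ϖ e a) (hV : Ext V₀ V) (c : ℕ → E₀) :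
    esum ϖ e c ∈ V ↔ ∀ i < e, c i ∈ V₀ := by
  obtain ⟨hγ0, hγ1⟩ := eisAux_gamma hU hE hV
  constructor
  · intro h i hi
    obtain ⟨m, -, h1, h2⟩ := eisAux_key hU hE hV c
    rw [← V.valuation_le_one_iff, h1] at h
    exact eisAux_mem_of_term_le hU hE hV hi ((h2 i hi).trans h)
  · intro h
    have hϖ : ϖ ∈ V := (V.valuation_le_one_iff _).mp hγ1.le
    exact V.toSubring.sum_mem fun i hi =>
      V.mul_mem _ _ ((hV _).mpr (h i (Finset.mem_range.mp hi))) (V.pow_mem hϖ i)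

theorem eis_lt_iff (hU : IsUnif V₀ ϖ₀) (hE : IsEis V₀ ϖ₀ ϖ e a) (hV : Ext V₀ V) (c : ℕ → E₀) :
    V.valuation (esum ϖ e c) < 1 ↔ (∀ i < e, c i ∈ V₀) ∧ V₀.valuation (c 0) < 1 := by
  obtain ⟨hγ0, hγ1⟩ := eisAux_gamma hU hE hV
  obtain ⟨m, hm, h1, h2⟩ := eisAux_key hU hE hV c
  constructor
  · intro h
    rw [h1] at h
    refine ⟨fun i hi => eisAux_mem_of_term_le hU hE hV hi ((h2 i hi).trans h.le), ?_⟩
    have h3 := (h2 0 hE.e_pos).trans_lt h
    rw [pow_zero, mul_one] at h3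
    exact (eisAux_lt_iff hV _).mp h3
  · rintro ⟨hmem, h0⟩
    rw [h1]
    rcases Nat.eq_zero_or_pos m with rfl | hmpos
    · rw [pow_zero, mul_one]
      exact (eisAux_lt_iff hV _).mpr h0
    · rw [map_mul, map_pow]
      calc V.valuation (algebraMap E₀ E (c m)) * V.valuation ϖ ^ m
          ≤ 1 * V.valuation ϖ ^ m := mul_le_mul' ((eisAux_le_iff hV _).mpr (hmem m hm)) le_rfl
        _ = V.valuation ϖ ^ m := one_mul _
        _ < 1 := pow_lt_one₀ zero_le hγ1 hmpos.ne'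

theorem eis_indep (hU : IsUnif V₀ ϖ₀) (hE : IsEis V₀ ϖ₀ ϖ e a) (hV : Ext V₀ V) (c : ℕ → E₀)
    (h : esum ϖ e c = 0) : ∀ i < e, c i = 0 := by
  have hϖ := eisAux_unif'_ne_zero hU hE hV
  obtain ⟨m, -, h1, h2⟩ := eisAux_key hU hE hV c
  intro i hi
  have h3 := h2 i hi
  rw [← h1, h, map_zero] at h3
  have h4 := (V.valuation.zero_iff).mp (le_antisymm h3 zero_le)
  rcases mul_eq_zero.mp h4 with h5 | h5
  · exact (map_eq_zero _).mp h5
  · exact absurd h5 (pow_ne_zero _ hϖ)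

theorem eis_unif (hU : IsUnif V₀ ϖ₀) (hE : IsEis V₀ ϖ₀ ϖ e a) (hV : Ext V₀ V) : IsUnif V ϖ := by
  obtain ⟨hγ0, hγ1⟩ := eisAux_gamma hU hE hV
  have hϖ := eisAux_unif'_ne_zero hU hE hV
  refine ⟨(V.valuation_le_one_iff _).mp hγ1.le, (eisAux_val_lt_one_iff hϖ).mp hγ1, ?_⟩
  intro y hy
  obtain ⟨c, rfl⟩ := hE.span y
  obtain ⟨m, -, h1, -⟩ := eisAux_key hU hE hV c
  have hcm : c m ≠ 0 := by
    intro h
    rw [h, map_zero, zero_mul, map_zero] at h1
    exact hy ((V.valuation.zero_iff).mp h1)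
  obtain ⟨n, hn, -⟩ := eisAux_term hU hE hV hcm m
  refine ⟨(e : ℤ) * n + m, ?_⟩
  have hval : V.valuation (esum ϖ e c / ϖ ^ ((e : ℤ) * n + m)) = 1 := by
    rw [map_div₀, map_zpow₀, h1, hn, div_self (zpow_ne_zero _ hγ0.ne')]
  constructor
  · exact (V.valuation_le_one_iff _).mp hval.le
  · rw [← V.valuation_le_one_iff, map_inv₀, hval, inv_one]

/-- uniqueness of the extension -/
theorem eis_ext_unique (hU : IsUnif V₀ ϖ₀) (hE : IsEis V₀ ϖ₀ ϖ e a) (hV : Ext V₀ V)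
    {V' : ValuationSubring E} (hV' : Ext V₀ V') : V' = V := by
  ext z
  obtain ⟨c, rfl⟩ := hE.span z
  rw [eis_mem_iff hU hE hV, eis_mem_iff hU hE hV']

/-- existence of the extension -/
theorem exists_ext (V₀ : ValuationSubring E₀) : ∃ V : ValuationSubring E, Ext V₀ V := by
  obtain ⟨V, h, hloc⟩ :=
    IsLocalRing.exists_factor_valuationRing ((algebraMap E₀ E).comp V₀.subtype)
  refine ⟨V, fun z => ⟨fun hz => ?_, fun hz => h ⟨z, hz⟩⟩⟩
  by_contra hzV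
  have hz0 : z ≠ 0 := by
    rintro rfl
    exact hzV V₀.zero_mem
  have hinv : z⁻¹ ∈ V₀ := (V₀.mem_or_inv_mem z).resolve_left hzV
  have hunit : IsUnit (((algebraMap E₀ E).comp V₀.subtype).codRestrict V.toSubring h ⟨z⁻¹, hinv⟩) := by
    refine ⟨⟨_, ⟨algebraMap E₀ E z, hz⟩, ?_, ?_⟩, rfl⟩
    · apply Subtype.ext
      show algebraMap E₀ E z⁻¹ * algebraMap E₀ E z = 1
      rw [← map_mul, inv_mul_cancel₀ hz0, map_one]
    · apply Subtype.ext
      show algebraMap E₀ E z * algebraMap E₀ E z⁻¹ = 1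
      rw [← map_mul, mul_inv_cancel₀ hz0, map_one]
  obtain ⟨u, hu⟩ := hloc.map_nonunit _ hunit
  apply hzV
  have h1 : ((u : V₀) : E₀) * (((u⁻¹ : V₀ˣ) : V₀) : E₀) = 1 := by
    have := congrArg Subtype.val u.mul_inv
    exact this
  rw [hu] at h1
  have h2 : (((u⁻¹ : V₀ˣ) : V₀) : E₀) = z := by
    have h3 : z⁻¹ * (((u⁻¹ : V₀ˣ) : V₀) : E₀) = 1 := h1
    field_simp at h3
    exact h3
  rw [← h2]
  exact ((u⁻¹ : V₀ˣ) : V₀).2

end Pair

end Fermat.Agent.S44.Depth
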