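/-
S44 / DEPTH, block BC, node BC3c (task 2200, helper288): `lift_denom`.
Elements of `F = ⊕ F₀ ϖ^i` which are integral over `R₀[ϖ]` have bounded denominators (trace form).
-/
import Fermat.Agent.S44.Depth.BCDefs
import Fermat.Agent.S18.Chart.Unif
import Fermat.Agent.S44.Depth.BC.Eis
import Fermat.Agent.S44.Depth.BC.LiftR

set_option autoImplicit false

noncomputable section

namespace Fermat.Agent.S44.Depth

open Fermat.Agent.S18 Fermat.Agent.S36.BP

section core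

variable {F₀ F : Type*} [Field F₀] [Field F] [Algebra F₀ F]

private theorem denom_esum_fin (ϖ : F) (e : ℕ) (c : ℕ → F₀) :
    esum ϖ e c = ∑ i : Fin e, c i • ϖ ^ (i : ℕ) := by
  unfold esum
  rw [Finset.sum_range]
  exact Finset.sum_congr rfl fun i _ => (Algebra.smul_def _ _).symm

private def denomExt {e : ℕ} (g : Fin e → F₀) : ℕ → F₀ :=
  fun i => if h : i < e then g ⟨i, h⟩ else 0

private theorem denomExt_apply {e : ℕ} (g : Fin e → F₀) (i : Fin e) : denomExt g i = g i := by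
  simp [denomExt]

private def denomBasis (ϖ : F) (e : ℕ)
    (hind : ∀ c : ℕ → F₀, esum ϖ e c = 0 → ∀ i < e, c i = 0)
    (hspan : ∀ z : F, ∃ c : ℕ → F₀, z = esum ϖ e c) : Module.Basis (Fin e) F₀ F :=
  Module.Basis.mk (v := fun i : Fin e => ϖ ^ (i : ℕ))
    (by
      rw [Fintype.linearIndependent_iff]
      intro g hg i
      have h := hind (denomExt g) (by rw [denom_esum_fin]; simpa [denomExt_apply] using hg) i i.2
      simpa [denomExt_apply] using h)
    (by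
      intro z _
      obtain ⟨c, rfl⟩ := hspan z
      rw [denom_esum_fin]
      exact Submodule.sum_mem _ fun i _ =>
        Submodule.smul_mem _ _ (Submodule.subset_span ⟨i, rfl⟩))

private theorem denomBasis_apply (ϖ : F) (e : ℕ)
    (hind : ∀ c : ℕ → F₀, esum ϖ e c = 0 → ∀ i < e, c i = 0)
    (hspan : ∀ z : F, ∃ c : ℕ → F₀, z = esum ϖ e c) (i : Fin e) :
    denomBasis ϖ e hind hspan i = ϖ ^ (i : ℕ) := by
  simp [denomBasis]

private theorem denomBasis_repr (ϖ : F) (e : ℕ)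
    (hind : ∀ c : ℕ → F₀, esum ϖ e c = 0 → ∀ i < e, c i = 0)
    (hspan : ∀ z : F, ∃ c : ℕ → F₀, z = esum ϖ e c) (c : ℕ → F₀) (i : Fin e) :
    (denomBasis ϖ e hind hspan).repr (esum ϖ e c) i = c i := by
  have h : esum ϖ e c = ∑ i : Fin e, (fun i : Fin e => c i) i • denomBasis ϖ e hind hspan i := by
    rw [denom_esum_fin]; simp [denomBasis_apply]
  rw [h, Module.Basis.repr_sum_self]

private theorem denom_isIntegral_of_liftR {R₀ : Subring F₀} {ϖ : F} (hϖ : IsIntegral R₀ ϖ) {z : F}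
    (hz : IsIntegral (liftR ϖ R₀) z) : IsIntegral R₀ z := by
  have hle : ∀ x ∈ liftR ϖ R₀, x ∈ integralClosure R₀ F := by
    intro x hx
    unfold liftR at hx
    induction hx using Subring.closure_induction with
    | mem x hx =>
      rcases hx with ⟨r, hr, rfl⟩ | rfl
      · exact (isIntegral_algebraMap (R := R₀) (A := F) (x := ⟨r, hr⟩))
      · exact hϖ
    | zero => exact Subalgebra.zero_mem _
    | one => exact Subalgebra.one_mem _
    | add x y _ _ hx hy => exact Subalgebra.add_mem _ hx hy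
    | neg x _ hx => exact Subalgebra.neg_mem _ hx
    | mul x y _ _ hx hy => exact Subalgebra.mul_mem _ hx hy
  have h2 : IsIntegral (integralClosure R₀ F) z := by
    have h3 := IsIntegral.map_of_comp_eq (R := liftR ϖ R₀) (S := F) (T := integralClosure R₀ F)
      (U := F) ((liftR ϖ R₀).subtype.codRestrict (integralClosure R₀ F) (fun x => hle x x.2))
      (RingHom.id F) (by ext; rfl) hz
    simpa using h3
  exact isIntegral_trans z h2

private theorem denom_core [CharZero F₀] {K₀ : Type*} [Field K₀] [Algebra K₀ F₀]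
    {A₀ : ValuationSubring K₀} {ϖ₀ : K₀} (hA : IsUnif A₀ ϖ₀) {R₀ : Subring F₀}
    (hconst : ∀ a ∈ A₀, algebraMap K₀ F₀ a ∈ R₀)
    (hic : ∀ y : F₀, IsIntegral R₀ y → y ∈ R₀) (ϖ : F) (e : ℕ)
    (hind : ∀ c : ℕ → F₀, esum ϖ e c = 0 → ∀ i < e, c i = 0)
    (hspan : ∀ z : F, ∃ c : ℕ → F₀, z = esum ϖ e c)
    (hrat : ∀ k : ℕ, ∃ c : ℕ → K₀, ϖ ^ k = esum ϖ e (fun i => algebraMap K₀ F₀ (c i)))
    (hϖ : IsIntegral R₀ ϖ) (c : ℕ → F₀) (hz : IsIntegral R₀ (esum ϖ e c)) :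
    ∃ N : ℕ, ∀ i < e, algebraMap K₀ F₀ ϖ₀ ^ N * c i ∈ R₀ := by
  classical
  set b := denomBasis ϖ e hind hspan with hb
  have : FiniteDimensional F₀ F := b.finiteDimensional_of_finite
  set φ := algebraMap K₀ F₀ with hφ
  have htr : ∀ k : ℕ, ∃ t : K₀, Algebra.trace F₀ F (ϖ ^ k) = φ t := by
    intro k
    choose cc hcc using hrat
    refine ⟨∑ j : Fin e, cc (k + j) j, ?_⟩
    rw [Algebra.trace_eq_matrix_trace b, Matrix.trace, map_sum]
    refine Finset.sum_congr rfl fun j _ => ?_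
    rw [Matrix.diag_apply, Algebra.leftMulMatrix_eq_repr_mul, hb, denomBasis_apply, ← pow_add,
      hcc (k + j), denomBasis_repr]
  choose t ht using htr
  let T₀ : Matrix (Fin e) (Fin e) K₀ := fun i j => t (i + j)
  have hT : T₀.map φ = Algebra.traceMatrix F₀ b := by
    ext i j
    rw [Matrix.map_apply, Algebra.traceMatrix_apply, Algebra.traceForm_apply, hb,
      denomBasis_apply, denomBasis_apply, ← pow_add, ht]
  have hdet : T₀.det ≠ 0 := by
    intro h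
    have h1 : (Algebra.traceMatrix F₀ b).det = 0 := by
      rw [← hT, ← RingHom.mapMatrix_apply, ← RingHom.map_det, h, map_zero]
    exact Algebra.discr_not_zero_of_basis F₀ b h1
  have hinv : T₀ * T₀⁻¹ = 1 := Matrix.mul_nonsing_inv _ (isUnit_iff_ne_zero.2 hdet)
  set M₀ := T₀⁻¹ with hM₀
  have hy : ∀ j : Fin e, Algebra.trace F₀ F (esum ϖ e c * ϖ ^ (j : ℕ)) ∈ R₀ := fun j =>
    hic _ (Algebra.isIntegral_trace (hz.mul (hϖ.pow _)))
  have hy2 : ∀ j : Fin e, Algebra.trace F₀ F (esum ϖ e c * ϖ ^ (j : ℕ))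
      = ∑ k : Fin e, c k * φ (T₀ k j) := by
    intro j
    rw [denom_esum_fin, Finset.sum_mul, map_sum]
    refine Finset.sum_congr rfl fun k _ => ?_
    rw [smul_mul_assoc, map_smul, smul_eq_mul, ← pow_add, ht]
  have hc : ∀ i : Fin e, c i
      = ∑ j : Fin e, Algebra.trace F₀ F (esum ϖ e c * ϖ ^ (j : ℕ)) * φ (M₀ j i) := by
    intro i
    simp_rw [hy2, Finset.sum_mul]
    rw [Finset.sum_comm]
    have h5 : ∀ k : Fin e, ∑ j : Fin e, c k * φ (T₀ k j) * φ (M₀ j i)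
        = c k * φ ((1 : Matrix (Fin e) (Fin e) K₀) k i) := by
      intro k
      rw [← hinv, Matrix.mul_apply, map_sum, Finset.mul_sum]
      exact Finset.sum_congr rfl fun j _ => by rw [map_mul, mul_assoc]
    simp_rw [h5, Matrix.one_apply]
    simp
  choose r hr using fun ji : Fin e × Fin e => hA.exists_pow_mul_mem (M₀ ji.1 ji.2)
  refine ⟨∑ ji, r ji, fun i hi => ?_⟩
  have h6 := hc ⟨i, hi⟩
  simp only at h6
  rw [h6, Finset.mul_sum]
  refine Subring.sum_mem _ fun j _ => ?_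
  have h7 : ϖ₀ ^ (∑ ji, r ji) * M₀ j ⟨i, hi⟩ ∈ A₀ := by
    have hle : r (j, ⟨i, hi⟩) ≤ ∑ ji, r ji :=
      Finset.single_le_sum (f := r) (fun _ _ => Nat.zero_le _) (Finset.mem_univ _)
    obtain ⟨m, hm⟩ := Nat.exists_eq_add_of_le hle
    rw [hm, add_comm, pow_add, mul_assoc]
    exact mul_mem (pow_mem hA.mem _) (hr (j, ⟨i, hi⟩))
  have h8 : φ ϖ₀ ^ (∑ ji, r ji) * (Algebra.trace F₀ F (esum ϖ e c * ϖ ^ (j : ℕ)) * φ (M₀ j ⟨i, hi⟩))
      = Algebra.trace F₀ F (esum ϖ e c * ϖ ^ (j : ℕ)) * φ (ϖ₀ ^ (∑ ji, r ji) * M₀ j ⟨i, hi⟩) := by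
    rw [map_mul φ, map_pow φ]; ring
  rw [h8]
  exact R₀.mul_mem (hy j) (hconst _ h7)

private theorem denom_isIntegral_root {R₀ : Subring F₀} {ϖ : F} {e : ℕ} {a : ℕ → F₀}
    (ha : ∀ i, a i ∈ R₀) (h : ϖ ^ e = esum ϖ e a) : IsIntegral R₀ ϖ := by
  refine ⟨Polynomial.X ^ e
    - ∑ i : Fin e, Polynomial.C (⟨a i, ha i⟩ : R₀) * Polynomial.X ^ (i : ℕ), ?_, ?_⟩
  · exact Polynomial.monic_X_pow_sub (Polynomial.degree_sum_fin_lt _)
  · rw [Polynomial.eval₂_sub, Polynomial.eval₂_pow, Polynomial.eval₂_X,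
      Polynomial.eval₂_finsetSum, h, denom_esum_fin, sub_eq_zero]
    refine Finset.sum_congr rfl fun i _ => ?_
    rw [Polynomial.eval₂_mul, Polynomial.eval₂_C, Polynomial.eval₂_pow, Polynomial.eval₂_X,
      Algebra.smul_def]
    rfl

end core

variable {K₀ K F₀ F : Type*} [Field K₀] [Field K] [Field F₀] [Field F]
  [Algebra K₀ K] [Algebra K₀ F₀] [Algebra K F] [Algebra F₀ F]
  {A₀ : ValuationSubring K₀} {ϖ₀ : K₀} {A : ValuationSubring K} {ϖ : K} {e : ℕ} {a : ℕ → K₀}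

section Pt

variable {R₀ : Subring F₀} {ι : Type*} [Nonempty ι] {V₀ : ι → ValuationSubring F₀}
  {V : ι → ValuationSubring F}

/-- BC3c: bounded denominators (trace form). -/
theorem lift_denom [CharZero F₀] (H : BCData A₀ ϖ₀ A ϖ e a F₀ F) (hR₀ : IsPt A₀ R₀)
    (hU : ∀ j, IsUnif (V₀ j) (algebraMap K₀ F₀ ϖ₀)) (hext : ∀ j, Ext (V₀ j) (V j))
    (hle : ∀ j, ∀ r ∈ R₀, r ∈ V₀ j) (c : ℕ → F₀)
    (hz : IsIntegral (liftR (algebraMap K F ϖ) R₀) (esum (algebraMap K F ϖ) e c)) :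
    ∃ N : ℕ, ∀ i < e, algebraMap K₀ F₀ ϖ₀ ^ N * c i ∈ R₀ := by
  obtain ⟨j⟩ := ‹Nonempty ι›
  have hE := H.isEisF (V₀ := V₀ j) (fun c hc => hle j _ (hR₀.const_mem c hc))
  have hind := eis_indep (hU j) hE (hext j)
  have hmap : ∀ (w : K) (c : ℕ → K₀), w = esum ϖ e c →
      algebraMap K F w = esum (algebraMap K F ϖ) e (fun i => algebraMap K₀ F₀ (c i)) := by
    intro w c hw
    rw [hw]
    unfold esum
    rw [map_sum]
    exact Finset.sum_congr rfl fun i _ => by rw [map_mul, map_pow, H.compat]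
  have hrat : ∀ k : ℕ, ∃ c : ℕ → K₀,
      (algebraMap K F ϖ) ^ k = esum (algebraMap K F ϖ) e (fun i => algebraMap K₀ F₀ (c i)) := by
    intro k
    obtain ⟨c, hc⟩ := H.eisK.span (ϖ ^ k)
    exact ⟨c, by rw [← map_pow]; exact hmap _ _ hc⟩
  have ha : ∀ i, algebraMap K₀ F₀ (a i) ∈ R₀ := by
    intro i
    refine hR₀.const_mem _ ?_
    have h1 : a i = ϖ₀ * (a i / ϖ₀) := by
      have := H.unif₀.ne_zero
      field_simp
    rw [h1]
    exact mul_mem H.unif₀.mem (H.eisK.a_mem i)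
  have hϖ : IsIntegral R₀ (algebraMap K F ϖ) :=
    denom_isIntegral_root ha (by rw [← map_pow]; exact hmap _ _ H.eisK.eis)
  exact denom_core H.unif₀ hR₀.const_mem hR₀.intClosed _ e hind H.spanF hrat hϖ c
    (denom_isIntegral_of_liftR hϖ hz)

end Pt

end Fermat.Agent.S44.Depth

end
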