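/-
S44 / DEPTH, block BC, node BC3a (owner helper191): `R₀[ϖ]` is local with maximal ideal `(𝔪₀, ϖ)`.
-/
import Fermat.Agent.S44.Depth.BCDefs
import Fermat.Agent.S36.BP.Base
import Fermat.Agent.S36.BP.Normal

set_option autoImplicit false

noncomputable section

namespace Fermat.Agent.S44.Depth

open Fermat.Agent.S18 Fermat.Agent.S36.BP Polynomial

/-! ### the abstract statement for one pair of fields -/

section Pair

variable {E₀ E : Type*} [Field E₀] [Field E] [Algebra E₀ E] {ϖ : E} {R₀ : Subring E₀}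

theorem bcRad_algebraMap_mem (ϖ : E) {r : E₀} (hr : r ∈ R₀) :
    algebraMap E₀ E r ∈ liftR ϖ R₀ :=
  Subring.subset_closure (Or.inl ⟨r, hr, rfl⟩)

theorem bcRad_self_mem (ϖ : E) (R₀ : Subring E₀) : ϖ ∈ liftR ϖ R₀ :=
  Subring.subset_closure (Or.inr rfl)

theorem bcRad_esum_mem (ϖ : E) (e : ℕ) {c : ℕ → E₀} (hc : ∀ i, c i ∈ R₀) :
    esum ϖ e c ∈ liftR ϖ R₀ :=
  sum_mem fun i _ => mul_mem (bcRad_algebraMap_mem ϖ (hc i)) (pow_mem (bcRad_self_mem ϖ R₀) i)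

/-- the inclusion `R₀ → R₀[ϖ]` -/
def bcRadHom (ϖ : E) (R₀ : Subring E₀) : R₀ →+* liftR ϖ R₀ :=
  ((algebraMap E₀ E).comp R₀.subtype).codRestrict (liftR ϖ R₀)
    (fun r => bcRad_algebraMap_mem ϖ r.2)

@[simp] theorem bcRadHom_coe (r : R₀) : ((bcRadHom ϖ R₀ r : liftR ϖ R₀) : E) = algebraMap E₀ E r :=
  rfl

/-- `esum = c₀ + ϖ * (rest)` -/
theorem bcRad_esum_eq (ϖ : E) {e : ℕ} (he : 0 < e) (c : ℕ → E₀) :
    esum ϖ e c = algebraMap E₀ E (c 0) + ϖ * esum ϖ (e - 1) (fun i => c (i + 1)) := by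
  obtain ⟨n, rfl⟩ : ∃ n, e = n + 1 := ⟨e - 1, by omega⟩
  rw [esum, Finset.sum_range_succ', esum, Nat.add_sub_cancel, Finset.mul_sum, pow_zero, mul_one,
    add_comm]
  congr 1
  exact Finset.sum_congr rfl fun i _ => by ring

/-- `R₀[ϖ]` is integral over `R₀` -/
theorem bcRad_isIntegral {e : ℕ} {a : ℕ → E₀} (ha : ∀ i, a i ∈ R₀) (heq : ϖ ^ e = esum ϖ e a) :
    (bcRadHom ϖ R₀).IsIntegral := by
  rintro ⟨x, hx⟩
  induction hx using Subring.closure_induction with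
  | mem x hx =>
    rcases hx with ⟨r, hr, rfl⟩ | rfl
    · exact (bcRadHom ϖ R₀).isIntegralElem_map (x := ⟨r, hr⟩)
    · refine ⟨X ^ e - ∑ i : Fin e, C (⟨a i, ha i⟩ : R₀) * X ^ (i : ℕ),
        monic_X_pow_sub (degree_sum_fin_lt _), ?_⟩
      apply Subtype.ext
      simp only [eval₂_sub, eval₂_pow, eval₂_X, eval₂_finsetSum, eval₂_mul, eval₂_C]
      push_cast
      simp only [bcRadHom_coe]
      rw [heq, esum, ← Fin.sum_univ_eq_sum_range (fun i => algebraMap E₀ E (a i) * _ ^ i) e,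
        sub_self]
  | zero => exact (bcRadHom ϖ R₀).isIntegralElem_zero
  | one => exact (bcRadHom ϖ R₀).isIntegralElem_one
  | add x y hx hy hx' hy' => exact RingHom.IsIntegralElem.add _ hx' hy'
  | neg x hx hx' => exact RingHom.IsIntegralElem.neg _ hx'
  | mul x y hx hy hx' hy' => exact RingHom.IsIntegralElem.mul _ hx' hy'

/-- every element of `R₀[ϖ]` is congruent to an element of `R₀` modulo `ϖ` -/
theorem bcRad_exists_decomp {z : E} (hz : z ∈ liftR ϖ R₀) :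
    ∃ r ∈ R₀, ∃ w ∈ liftR ϖ R₀, z = algebraMap E₀ E r + ϖ * w := by
  induction hz using Subring.closure_induction with
  | mem x hx =>
    rcases hx with ⟨r, hr, rfl⟩ | rfl
    · exact ⟨r, hr, 0, zero_mem _, by simp⟩
    · exact ⟨0, zero_mem _, 1, one_mem _, by simp⟩
  | zero => exact ⟨0, zero_mem _, 0, zero_mem _, by simp⟩
  | one => exact ⟨1, one_mem _, 0, zero_mem _, by simp⟩
  | add x y hx hy hx' hy' =>
    obtain ⟨r, hr, w, hw, rfl⟩ := hx'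
    obtain ⟨r', hr', w', hw', rfl⟩ := hy'
    exact ⟨r + r', add_mem hr hr', w + w', add_mem hw hw', by rw [map_add]; ring⟩
  | neg x hx hx' =>
    obtain ⟨r, hr, w, hw, rfl⟩ := hx'
    exact ⟨-r, neg_mem hr, -w, neg_mem hw, by rw [map_neg]; ring⟩
  | mul x y hx hy hx' hy' =>
    obtain ⟨r, hr, w, hw, rfl⟩ := hx'
    obtain ⟨r', hr', w', hw', rfl⟩ := hy'
    refine ⟨r * r', mul_mem hr hr', algebraMap E₀ E r * w' + w * algebraMap E₀ E r' + ϖ * w * w',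
      ?_, by rw [map_mul]; ring⟩
    exact add_mem (add_mem (mul_mem (bcRad_algebraMap_mem ϖ hr) hw')
      (mul_mem hw (bcRad_algebraMap_mem ϖ hr')))
      (mul_mem (mul_mem (bcRad_self_mem ϖ R₀) hw) hw')

/-- a maximal ideal of `R₀[ϖ]` meets `R₀` in the maximal ideal and contains `ϖ` -/
theorem bcRad_maximal [IsLocalRing R₀] {e : ℕ} {a : ℕ → E₀} (ha : ∀ i, a i ∈ rad R₀)
    (heq : ϖ ^ e = esum ϖ e a) (M : Ideal (liftR ϖ R₀)) [hM : M.IsMaximal] :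
    (∀ r : R₀, bcRadHom ϖ R₀ r ∈ M ↔ (r : E₀) ∈ rad R₀) ∧
      (⟨ϖ, bcRad_self_mem ϖ R₀⟩ : liftR ϖ R₀) ∈ M := by
  have hint : (bcRadHom ϖ R₀).IsIntegral := bcRad_isIntegral (fun i => (ha i).1) heq
  have hmax : (M.comap (bcRadHom ϖ R₀)).IsMaximal :=
    Ideal.isMaximal_comap_of_isIntegral_of_isMaximal' _ hint M
  have hcomap : M.comap (bcRadHom ϖ R₀) = IsLocalRing.maximalIdeal R₀ :=
    IsLocalRing.eq_maximalIdeal hmax
  have h1 : ∀ r : R₀, bcRadHom ϖ R₀ r ∈ M ↔ (r : E₀) ∈ rad R₀ := by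
    intro r
    rw [← Ideal.mem_comap, hcomap, IsLocalRing.mem_maximalIdeal, mem_nonunits_iff,
      mem_rad_iff_not_isUnit]
  refine ⟨h1, ?_⟩
  apply hM.isPrime.mem_of_pow_mem e
  have : (⟨ϖ, bcRad_self_mem ϖ R₀⟩ : liftR ϖ R₀) ^ e
      = ∑ i ∈ Finset.range e, bcRadHom ϖ R₀ ⟨a i, (ha i).1⟩ *
          (⟨ϖ, bcRad_self_mem ϖ R₀⟩ : liftR ϖ R₀) ^ i := by
    apply Subtype.ext
    push_cast
    simp only [bcRadHom_coe]
    exact heq
  rw [this]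
  exact sum_mem fun i _ => M.mul_mem_right _ ((h1 ⟨a i, (ha i).1⟩).mpr (ha i))

/-- the maximal ideal of `R₀[ϖ]` is `(𝔪₀, ϖ)` -/
theorem bcRad_mem_rad_iff [IsLocalRing R₀] {e : ℕ} {a : ℕ → E₀} (ha : ∀ i, a i ∈ rad R₀)
    (heq : ϖ ^ e = esum ϖ e a) {r : E₀} (hr : r ∈ R₀) {w : E} (hw : w ∈ liftR ϖ R₀) :
    algebraMap E₀ E r + ϖ * w ∈ rad (liftR ϖ R₀) ↔ r ∈ rad R₀ := by
  have hz : algebraMap E₀ E r + ϖ * w ∈ liftR ϖ R₀ :=
    add_mem (bcRad_algebraMap_mem ϖ hr) (mul_mem (bcRad_self_mem ϖ R₀) hw)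
  have hzeq : (⟨_, hz⟩ : liftR ϖ R₀)
      = bcRadHom ϖ R₀ ⟨r, hr⟩ + ⟨ϖ, bcRad_self_mem ϖ R₀⟩ * ⟨w, hw⟩ := Subtype.ext rfl
  have key : ∀ M : Ideal (liftR ϖ R₀), M.IsMaximal → ((⟨_, hz⟩ : liftR ϖ R₀) ∈ M ↔ r ∈ rad R₀) := by
    intro M hM
    obtain ⟨h1, h2⟩ := bcRad_maximal ha heq M
    rw [hzeq, ← h1 ⟨r, hr⟩]
    exact (M.add_mem_iff_left (M.mul_mem_right _ h2))
  rw [show (algebraMap E₀ E r + ϖ * w) = ((⟨_, hz⟩ : liftR ϖ R₀) : E) from rfl,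
    mem_rad_iff_not_isUnit]
  constructor
  · intro hnu
    obtain ⟨M, hM, hmem⟩ := exists_max_ideal_of_mem_nonunits (mem_nonunits_iff.mpr hnu)
    exact (key M hM).mp hmem
  · intro hr' hu
    obtain ⟨M, hM⟩ := Ideal.exists_maximal (liftR ϖ R₀)
    exact hM.ne_top (Ideal.eq_top_of_isUnit_mem _ ((key M hM).mpr hr') hu)

end Pair

/-! ### the base change datum -/

variable {K₀ K F₀ F : Type*} [Field K₀] [Field K] [Field F₀] [Field F]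
  [Algebra K₀ K] [Algebra K₀ F₀] [Algebra K F] [Algebra F₀ F]
  {A₀ : ValuationSubring K₀} {ϖ₀ : K₀} {A : ValuationSubring K} {ϖ : K} {e : ℕ} {a : ℕ → K₀}
  {R₀ : Subring F₀}

/-- the Eisenstein equation in `F` -/
theorem bcRad_eis (H : BCData A₀ ϖ₀ A ϖ e a F₀ F) :
    algebraMap K F ϖ ^ e = esum (algebraMap K F ϖ) e (fun i => algebraMap K₀ F₀ (a i)) := by
  rw [← map_pow, H.eisK.eis, esum, esum, map_sum]
  exact Finset.sum_congr rfl fun i _ => by rw [map_mul, map_pow, H.compat]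

/-- the coefficients of the Eisenstein equation lie in the maximal ideal of `R₀` -/
theorem bcRad_coeff_mem (H : BCData A₀ ϖ₀ A ϖ e a F₀ F) (hR₀ : IsPt A₀ R₀) (i : ℕ) :
    algebraMap K₀ F₀ (a i) ∈ rad R₀ := by
  apply hR₀.const_rad
  have h1 : A₀.valuation ϖ₀ < 1 := valuation_lt_one_of_isUnif H.unif₀
  have h2 : A₀.valuation (a i / ϖ₀) ≤ 1 := (A₀.valuation_le_one_iff _).mpr (H.eisK.a_mem i)
  have h0 : ϖ₀ ≠ 0 := by
    intro h0
    apply H.unif₀.inv_notMem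
    rw [h0, inv_zero]; exact A₀.zero_mem
  have h3 : a i = a i / ϖ₀ * ϖ₀ := by field_simp
  rw [h3, map_mul]
  calc A₀.valuation (a i / ϖ₀) * A₀.valuation ϖ₀ ≤ 1 * A₀.valuation ϖ₀ :=
        mul_le_mul_left h2 _
    _ < 1 := by rwa [one_mul]

/-- general form of BC3a -/
theorem mem_rad_liftR_iff' (H : BCData A₀ ϖ₀ A ϖ e a F₀ F) (hR₀ : IsPt A₀ R₀) {r : F₀}
    (hr : r ∈ R₀) {w : F} (hw : w ∈ liftR (algebraMap K F ϖ) R₀) :
    algebraMap F₀ F r + algebraMap K F ϖ * w ∈ rad (liftR (algebraMap K F ϖ) R₀) ↔ r ∈ rad R₀ :=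
  haveI := hR₀.isLocalRing
  bcRad_mem_rad_iff (bcRad_coeff_mem H hR₀) (bcRad_eis H) hr hw

/-- BC3a: the maximal ideal of `R₀[ϖ]`. -/
theorem mem_rad_liftR_iff (H : BCData A₀ ϖ₀ A ϖ e a F₀ F) (hR₀ : IsPt A₀ R₀) (c : ℕ → F₀)
    (hc : ∀ i, c i ∈ R₀) :
    esum (algebraMap K F ϖ) e c ∈ rad (liftR (algebraMap K F ϖ) R₀) ↔ c 0 ∈ rad R₀ := by
  rw [bcRad_esum_eq _ H.eisK.e_pos c]
  exact mem_rad_liftR_iff' H hR₀ (hc 0) (bcRad_esum_mem _ _ fun i => hc (i + 1))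

/-- units of `R₀[ϖ]` -/
theorem rUnit_liftR_iff (H : BCData A₀ ϖ₀ A ϖ e a F₀ F) (hR₀ : IsPt A₀ R₀) (c : ℕ → F₀)
    (hc : ∀ i, c i ∈ R₀) :
    RUnit (liftR (algebraMap K F ϖ) R₀) (esum (algebraMap K F ϖ) e c) ↔ RUnit R₀ (c 0) := by
  have h := mem_rad_liftR_iff H hR₀ c hc
  constructor
  · intro hu
    by_contra hn
    exact (h.mpr ⟨hc 0, hn⟩).2 hu
  · intro hu
    by_contra hn
    exact (h.mp ⟨bcRad_esum_mem _ _ hc, hn⟩).2 hu

/-- `R₀[ϖ]` is local -/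
theorem lift_add_rad (H : BCData A₀ ϖ₀ A ϖ e a F₀ F) (hR₀ : IsPt A₀ R₀) :
    ∀ x ∈ rad (liftR (algebraMap K F ϖ) R₀), ∀ y ∈ rad (liftR (algebraMap K F ϖ) R₀),
      x + y ∈ rad (liftR (algebraMap K F ϖ) R₀) := by
  intro x hx y hy
  obtain ⟨r, hr, w, hw, rfl⟩ := bcRad_exists_decomp hx.1
  obtain ⟨r', hr', w', hw', rfl⟩ := bcRad_exists_decomp hy.1
  have h1 := (mem_rad_liftR_iff' H hR₀ hr hw).mp hx
  have h2 := (mem_rad_liftR_iff' H hR₀ hr' hw').mp hy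
  have h3 := (mem_rad_liftR_iff' H hR₀ (add_mem hr hr') (add_mem hw hw')).mpr
    (hR₀.add_rad _ h1 _ h2)
  have : algebraMap F₀ F r + algebraMap K F ϖ * w + (algebraMap F₀ F r' + algebraMap K F ϖ * w')
      = algebraMap F₀ F (r + r') + algebraMap K F ϖ * (w + w') := by rw [map_add]; ring
  rw [this]
  exact h3

end Fermat.Agent.S44.Depth

end
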