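/-
S44 / DEPTH (architect helper219), block BC, nodes BC10a, BC10b: the local shapes descend to `F₀`
after reduction.  Owner: helper231 (task 2208).
-/
import Fermat.Agent.S44.Depth.BCDefs
import Fermat.Agent.S44.Depth.BC.Eis
import Fermat.Agent.S44.Depth.BC.LiftR
import Fermat.Agent.S44.Depth.BC.Rad
import Fermat.Agent.S36.BP.Cong
import Fermat.Agent.S18.Chart.Unif

set_option autoImplicit false

noncomputable section

namespace Fermat.Agent.S44.Depth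

open Fermat.Agent.S18 Fermat.Agent.S36.BP

variable {K₀ K F₀ F : Type*} [Field K₀] [Field K] [Field F₀] [Field F]
  [Algebra K₀ K] [Algebra K₀ F₀] [Algebra K F] [Algebra F₀ F]
  {A₀ : ValuationSubring K₀} {ϖ₀ : K₀} {A : ValuationSubring K} {ϖ : K} {e : ℕ} {a : ℕ → K₀}

section DescendAux

variable {E₀ E : Type*} [Field E₀] [Field E] [Algebra E₀ E] {V₀ : ValuationSubring E₀} {π₀ : E₀}
  {π : E} {e : ℕ} {a : ℕ → E₀} {V : ValuationSubring E}

private theorem descend_esum_sub (he : 0 < e) (c : ℕ → E₀) :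
    esum π e c - algebraMap E₀ E (c 0) = esum π e (Function.update c 0 0) := by
  rw [sub_eq_iff_eq_add', ← sub_eq_iff_eq_add]
  unfold esum
  rw [← Finset.sum_sub_distrib, Finset.sum_eq_single 0]
  · simp
  · intro i _ hi
    rw [Function.update_of_ne hi, sub_self]
  · intro h
    exact absurd (Finset.mem_range.2 he) h

private theorem descend_cong_zero (hU : IsUnif V₀ π₀) (hE : IsEis V₀ π₀ π e a) (hV : Ext V₀ V)
    (c : ℕ → E₀) (hc : ∀ i < e, c i ∈ V₀) : Cong V (esum π e c) (algebraMap E₀ E (c 0)) := by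
  rw [cong_iff, descend_esum_sub hE.e_pos, eis_lt_iff hU hE hV]
  refine ⟨fun i hi => ?_, by simp⟩
  by_cases h0 : i = 0
  · subst h0
    simp only [Function.update_self]
    exact V₀.zero_mem
  · rw [Function.update_of_ne h0]
    exact hc i hi

private theorem descend_val_eq_one_iff (hV : Ext V₀ V) (z : E₀) :
    V.valuation (algebraMap E₀ E z) = 1 ↔ V₀.valuation z = 1 := by
  rcases eq_or_ne z 0 with rfl | hz
  · simp
  · rw [valuation_eq_one_iff_mem ((map_ne_zero _).2 hz), valuation_eq_one_iff_mem hz, ← map_inv₀,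
      hV, hV]

end DescendAux

private theorem descend_core (H : BCData A₀ ϖ₀ A ϖ e a F₀ F) {V₀ : ValuationSubring F₀}
    {V : ValuationSubring F} (hU : IsUnif V₀ (algebraMap K₀ F₀ ϖ₀)) (hext : Ext V₀ V)
    {R₀ : Subring F₀} (hR₀ : IsPt A₀ R₀) (hle : ∀ r ∈ R₀, r ∈ V₀) {G r : F}
    (hG : V.valuation G = 1) (hr : RUnit (liftR (algebraMap K F ϖ) R₀) r) :
    ∃ G₀ r₀ : F₀, V₀.valuation G₀ = 1 ∧ RUnit R₀ r₀ ∧ Cong V G (algebraMap F₀ F G₀) ∧
      Cong V r (algebraMap F₀ F r₀) := by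
  have hE := H.isEisF (V₀ := V₀) fun c hc => hle _ (hR₀.const_mem c hc)
  have haA : ∀ i, a i ∈ A₀ := fun i => by
    have h1 : a i = a i / ϖ₀ * ϖ₀ := by
      rw [div_mul_cancel₀ _ H.unif₀.ne_zero]
    rw [h1]
    exact A₀.mul_mem _ _ (H.eisK.a_mem i) H.unif₀.mem
  obtain ⟨g, rfl⟩ := H.spanF G
  have hg : ∀ i < e, g i ∈ V₀ :=
    (eis_mem_iff hU hE hext g).1 ((V.valuation_le_one_iff _).1 hG.le)
  have hGc := descend_cong_zero hU hE hext g hg
  obtain ⟨c, hc, rfl⟩ := (mem_liftR_iff hE R₀ (fun i => hR₀.const_mem _ (haA i)) r).1 hr.2.1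
  have hrc := descend_cong_zero hU hE hext c fun i _ => hle _ (hc i)
  refine ⟨g 0, c 0, (descend_val_eq_one_iff hext _).1 (hGc.symm.eq_one hG), ?_, hGc, hrc⟩
  by_contra hcon
  exact ((mem_rad_liftR_iff H hR₀ c hc).2 ⟨hc 0, hcon⟩).2 hr

variable {Vi₀ V0₀ : ValuationSubring F₀} {Vi V0 : ValuationSubring F} {x₀ y₀ : F₀}
  {Smi₀ Sm0₀ Nd₀ : Set (Subring F₀)} {e₀ : ℕ}

/-- BC10a: the shape at a node descends to `F₀` after reduction. -/
theorem nodeShape_descend (H : BCData A₀ ϖ₀ A ϖ e a F₀ F)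
    (M₀ : NodalModel A₀ ϖ₀ e₀ Vi₀ V0₀ x₀ y₀ Smi₀ Sm0₀ Nd₀) (hi : Ext Vi₀ Vi) {R₀ : Subring F₀}
    (hR₀ : R₀ ∈ Nd₀) {n : ℕ} {u : F} {b : ℤ}
    (h : NodeShape K Vi (algebraMap F₀ F x₀) (liftR (algebraMap K F ϖ) R₀) n u b) :
    ∃ (κ : K) (G₀ r₀ : F₀), κ ≠ 0 ∧ Vi₀.valuation G₀ = 1 ∧ RUnit R₀ r₀ ∧
      Vi.valuation (u / algebraMap K F κ - algebraMap F₀ F (x₀ ^ b * G₀ ^ n * r₀)) < 1 := by
  obtain ⟨κ, G, hκ, hG, hr⟩ := h
  have hN := M₀.nd R₀ hR₀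
  obtain ⟨G₀, r₀, hG₀, hr₀, hGc, hrc⟩ := descend_core H M₀.unifi hi hN.isPt hN.thri.le hG hr
  refine ⟨κ, G₀, r₀, hκ, hG₀, hr₀, ?_⟩
  have hx1 : Vi.valuation (algebraMap F₀ F x₀) = 1 := (descend_val_eq_one_iff hi _).2 M₀.x_i
  have hG₀1 : Vi.valuation (algebraMap F₀ F G₀) = 1 := (descend_val_eq_one_iff hi _).2 hG₀
  have hx0 : algebraMap F₀ F x₀ ≠ 0 := by
    intro h0
    rw [h0, map_zero] at hx1
    exact zero_ne_one hx1
  have hG0 : G ≠ 0 := by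
    rintro rfl
    rw [map_zero] at hG
    exact zero_ne_one hG
  have hκ0 : algebraMap K F κ ≠ 0 := (map_ne_zero _).2 hκ
  have hu : u / algebraMap K F κ = algebraMap F₀ F x₀ ^ b * G ^ n *
      (u / (algebraMap K F κ * algebraMap F₀ F x₀ ^ b * G ^ n)) := by
    have := zpow_ne_zero b hx0
    field_simp
  rw [hu, map_mul, map_mul, map_zpow₀, map_pow, ← cong_iff]
  refine Cong.mul ((hGc.pow hG₀1.le n).mul_left (valuation_zpow_eq_one hx1 b).le) hrc ?_ ?_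
  · rw [map_mul, valuation_zpow_eq_one hx1 b, valuation_pow_eq_one hG₀1 n, one_mul]
  · exact hrc.le_one ((Vi.valuation_le_one_iff _).2 ((hi _).2 (hN.thri.le _ hr₀.2.1)))

/-- BC10b: the shape at a smooth point descends to `F₀` after reduction. -/
theorem smShape_descend (H : BCData A₀ ϖ₀ A ϖ e a F₀ F) {V₀ : ValuationSubring F₀}
    {V : ValuationSubring F} (hU : IsUnif V₀ (algebraMap K₀ F₀ ϖ₀)) (hext : Ext V₀ V)
    {R₀ : Subring F₀} (hS : IsSm A₀ ϖ₀ V₀ R₀) {n : ℕ} {u : F}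
    (h : SmShape K V (liftR (algebraMap K F ϖ) R₀) n u) :
    ∃ (κ : K) (G₀ r₀ : F₀), κ ≠ 0 ∧ V₀.valuation G₀ = 1 ∧ RUnit R₀ r₀ ∧
      V.valuation (u / algebraMap K F κ - algebraMap F₀ F (G₀ ^ n * r₀)) < 1 := by
  obtain ⟨κ, G, hκ, hG, hr⟩ := h
  obtain ⟨G₀, r₀, hG₀, hr₀, hGc, hrc⟩ := descend_core H hU hext hS.isPt hS.thr.le hG hr
  refine ⟨κ, G₀, r₀, hκ, hG₀, hr₀, ?_⟩
  have hG₀1 : V.valuation (algebraMap F₀ F G₀) = 1 := (descend_val_eq_one_iff hext _).2 hG₀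
  have hG0 : G ≠ 0 := by
    rintro rfl
    rw [map_zero] at hG
    exact zero_ne_one hG
  have hκ0 : algebraMap K F κ ≠ 0 := (map_ne_zero _).2 hκ
  have hu : u / algebraMap K F κ = G ^ n * (u / (algebraMap K F κ * G ^ n)) := by
    field_simp
  rw [hu, map_mul, map_pow, ← cong_iff]
  refine Cong.mul (hGc.pow hG₀1.le n) hrc ?_ ?_
  · rw [valuation_pow_eq_one hG₀1 n]
  · exact hrc.le_one ((V.valuation_le_one_iff _).2 ((hext _).2 (hS.thr.le _ hr₀.2.1)))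

end Fermat.Agent.S44.Depth

end
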