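/-
S44 / DEPTH, block BC (architect helper219), node BC6: finiteness at the horizontal primes of the
base changed local ring `R₀[ϖ]`.
-/
import Fermat.Agent.S44.Depth.BCDefs
import Fermat.Agent.S36.BP.Cong
import Fermat.Agent.S18.Chart.Const
import Fermat.Agent.S18.Chart.Unif

set_option autoImplicit false

noncomputable section

namespace Fermat.Agent.S44.Depth

open Fermat.Agent.S18 Fermat.Agent.S36.BP

/-- a valuation ring contains the roots of monic polynomials with coefficients in it -/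
private theorem fin_mem_of_monic {E : Type*} [Field E] (V : ValuationSubring E) (x : E) (e : ℕ)
    (b : ℕ → E) (hb : ∀ i, b i ∈ V) (h : x ^ e = ∑ i ∈ Finset.range e, b i * x ^ i) : x ∈ V := by
  rcases V.mem_or_inv_mem x with h1 | h1
  · exact h1
  rcases eq_or_ne x 0 with rfl | hx
  · exact V.zero_mem
  cases e with
  | zero => simp at h
  | succ n =>
    have h2 : x = ∑ i ∈ Finset.range (n + 1), b i * x⁻¹ ^ (n - i) := by
      have h3 : x = x ^ (n + 1) * x⁻¹ ^ n := by
        rw [pow_succ, inv_pow]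
        field_simp
      conv_lhs => rw [h3, h, Finset.sum_mul]
      refine Finset.sum_congr rfl fun i hi => ?_
      have hi' : i ≤ n := Nat.lt_succ_iff.mp (Finset.mem_range.mp hi)
      obtain ⟨k, rfl⟩ := Nat.exists_eq_add_of_le hi'
      rw [Nat.add_sub_cancel_left, pow_add, inv_pow, inv_pow]
      field_simp
    rw [h2]
    exact V.toSubring.sum_mem fun i _ => V.mul_mem _ _ (hb i) (V.pow_mem h1 _)

/-- comparison of the maximal ideals of `W` and of its restriction -/
private theorem fin_val_comap_lt {E₀ E : Type*} [Field E₀] [Field E] (f : E₀ →+* E)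
    (W : ValuationSubring E) {z : E₀} (h : (W.comap f).valuation z < 1) :
    W.valuation (f z) < 1 := by
  rcases eq_or_ne z 0 with rfl | hz
  · rw [map_zero, map_zero]
    exact zero_lt_one
  rw [valuation_lt_one_iff_inv_not_mem hz] at h
  rw [valuation_lt_one_iff_inv_not_mem ((map_ne_zero f).mpr hz), ← map_inv₀]
  exact h

variable {K₀ K F₀ F : Type*} [Field K₀] [Field K] [Field F₀] [Field F]
  [Algebra K₀ K] [Algebra K₀ F₀] [Algebra K F] [Algebra F₀ F]
  {A₀ : ValuationSubring K₀} {ϖ₀ : K₀} {A : ValuationSubring K} {ϖ : K} {e : ℕ} {a : ℕ → K₀}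

private theorem fin_unif_mem (H : BCData A₀ ϖ₀ A ϖ e a F₀ F) : ϖ ∈ A := by
  refine fin_mem_of_monic A ϖ e (fun i => algebraMap K₀ K (a i)) (fun i => ?_) H.eisK.eis
  rw [H.extA]
  have h1 : a i = a i / ϖ₀ * ϖ₀ := (div_mul_cancel₀ _ H.unif₀.ne_zero).symm
  rw [h1]
  exact A₀.mul_mem _ _ (H.eisK.a_mem i) H.unif₀.mem

private theorem fin_liftR_le {E₀ E : Type*} [Field E₀] [Field E] [Algebra E₀ E] (ϖ : E)
    (R₀ : Subring E₀) : liftR ϖ R₀ ≤ polyRing R₀ ϖ := by
  unfold liftR
  rw [Subring.closure_le]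
  rintro z (⟨z₀, hz₀, rfl⟩ | rfl)
  · show algebraMap E₀ E z₀ ∈ polyRing R₀ ϖ
    rw [mem_polyRing_iff]
    refine ⟨Polynomial.C z₀, fun i => ?_, by simp⟩
    rw [Polynomial.coeff_C]
    split_ifs
    · exact hz₀
    · exact R₀.zero_mem
  · show z ∈ polyRing R₀ z
    rw [mem_polyRing_iff]
    refine ⟨Polynomial.X, fun i => ?_, by simp⟩
    rw [Polynomial.coeff_X]
    split_ifs
    · exact R₀.one_mem
    · exact R₀.zero_mem

section One

variable {R₀ : Subring F₀} {V₀ : ValuationSubring F₀} {V : ValuationSubring F}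

/-- BC6: finiteness at the horizontal primes. -/
theorem lift_fin (H : BCData A₀ ϖ₀ A ϖ e a F₀ F) (hR₀ : IsPt A₀ R₀)
    (hfin : ∀ W : ValuationSubring F₀, Hor K₀ R₀ W → ∃ S : Finset F₀, (∀ s ∈ S, s ∈ R₀) ∧
      ∀ r ∈ R₀, ∃ c : F₀ → K₀, (∀ s, c s ∈ A₀) ∧
        W.valuation (r - ∑ s ∈ S, algebraMap K₀ F₀ (c s) * s) < 1) :
    ∀ W : ValuationSubring F, Hor K (liftR (algebraMap K F ϖ) R₀) W →
      ∃ S : Finset F, (∀ s ∈ S, s ∈ liftR (algebraMap K F ϖ) R₀) ∧
      ∀ r ∈ liftR (algebraMap K F ϖ) R₀, ∃ c : F → K, (∀ s, c s ∈ A) ∧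
        W.valuation (r - ∑ s ∈ S, algebraMap K F (c s) * s) < 1 := by
  classical
  rintro W ⟨hWc, hWR, hWtop⟩
  set ϖF : F := algebraMap K F ϖ with hPdef
  have hinj : Function.Injective (algebraMap F₀ F) := (algebraMap F₀ F).injective
  have hmemR : ∀ z ∈ R₀, algebraMap F₀ F z ∈ liftR ϖF R₀ := fun z hz =>
    Subring.subset_closure (Or.inl ⟨z, hz, rfl⟩)
  have hPW : ϖF ∈ W := hWc ϖ
  -- the restriction of `W` to `F₀` is horizontal
  have hHor : Hor K₀ R₀ (W.comap (algebraMap F₀ F)) := by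
    refine ⟨fun c => ?_, fun r hr => ?_, fun htop => hWtop ?_⟩
    · rw [ValuationSubring.mem_comap, ← H.compat]
      exact hWc _
    · rw [ValuationSubring.mem_comap]
      exact hWR _ (hmemR r hr)
    · rw [eq_top_iff]
      intro z _
      obtain ⟨c, rfl⟩ := H.spanF z
      refine W.toSubring.sum_mem fun i _ => W.mul_mem _ _ ?_ (W.pow_mem hPW i)
      have : c i ∈ W.comap (algebraMap F₀ F) := by
        rw [htop]
        exact ValuationSubring.mem_top _
      exact this
  obtain ⟨S₀, hS₀, hS₀'⟩ := hfin _ hHor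
  refine ⟨S₀.image (algebraMap F₀ F), fun s hs => ?_, fun r hr => ?_⟩
  · obtain ⟨s₀, hs₀, rfl⟩ := Finset.mem_image.mp hs
    exact hmemR s₀ (hS₀ s₀ hs₀)
  obtain ⟨p, hp, rfl⟩ := (mem_polyRing_iff R₀ ϖF r).mp (fin_liftR_le ϖF R₀ hr)
  choose α hα hα' using fun i : ℕ => hS₀' (p.coeff i) (hp i)
  set n := p.natDegree + 1 with hn
  refine ⟨fun t => ∑ i ∈ Finset.range n,
    algebraMap K₀ K (α i (Function.invFun (algebraMap F₀ F) t)) * ϖ ^ i, fun t => ?_, ?_⟩
  · exact A.toSubring.sum_mem fun i _ =>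
      A.mul_mem _ _ ((H.extA _).mpr (hα i _)) (A.pow_mem (fin_unif_mem H) i)
  rw [Finset.sum_image fun x _ y _ h => hinj h]
  have key : Polynomial.aeval ϖF p - ∑ s ∈ S₀, algebraMap K F (∑ i ∈ Finset.range n,
      algebraMap K₀ K (α i (Function.invFun (algebraMap F₀ F) (algebraMap F₀ F s))) * ϖ ^ i) *
        algebraMap F₀ F s =
      ∑ i ∈ Finset.range n, algebraMap F₀ F
        (p.coeff i - ∑ s ∈ S₀, algebraMap K₀ F₀ (α i s) * s) * ϖF ^ i := by
    rw [Polynomial.aeval_eq_sum_range]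
    simp only [Function.leftInverse_invFun hinj _, map_sum, map_mul, map_pow, map_sub, H.compat,
      Algebra.smul_def, sub_mul, Finset.sum_sub_distrib, Finset.sum_mul]
    congr 1
    rw [Finset.sum_comm]
    refine Finset.sum_congr rfl fun i _ => Finset.sum_congr rfl fun s _ => ?_
    ring
  rw [key]
  refine Valuation.map_sum_lt _ one_ne_zero fun i _ => ?_
  rw [map_mul]
  refine mul_lt_one_of_lt_of_le (fin_val_comap_lt _ W (hα' i)) ?_
  exact (W.valuation_le_one_iff _).mpr (W.pow_mem hPW i)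

end One

end Fermat.Agent.S44.Depth

end
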