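/-
S44 / DEPTH / BC3b (architect helper219, prover helper116): `R₀[ϖ]` is noetherian.
`R₀[ϖ]` is the range of the evaluation map `R₀[X] → F`, so Hilbert's basis theorem applies.
-/
import Fermat.Agent.S44.Depth.BCDefs

set_option autoImplicit false

noncomputable section

namespace Fermat.Agent.S44.Depth

open Fermat.Agent.S18 Fermat.Agent.S36.BP

/-- `R₀[ϖ]` is the range of the evaluation map. -/
private theorem noeth_liftR_eq_range {E₀ E : Type*} [Field E₀] [Field E] [Algebra E₀ E] (ϖ : E)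
    (R₀ : Subring E₀) :
    liftR ϖ R₀ = (Polynomial.eval₂RingHom ((algebraMap E₀ E).comp R₀.subtype) ϖ).range := by
  apply le_antisymm
  · refine (Subring.closure_le).2 ?_
    rintro z (⟨r, hr, rfl⟩ | hz)
    · exact ⟨Polynomial.C ⟨r, hr⟩, by simp⟩
    · rw [Set.mem_singleton_iff] at hz
      subst hz
      exact ⟨Polynomial.X, by simp⟩
  · rintro _ ⟨P, rfl⟩
    have hϖ : ϖ ∈ liftR ϖ R₀ := Subring.subset_closure (Or.inr rfl)
    have hr : ∀ r : R₀, (algebraMap E₀ E).comp R₀.subtype r ∈ liftR ϖ R₀ := fun r =>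
      Subring.subset_closure (Or.inl ⟨r.1, r.2, rfl⟩)
    rw [Polynomial.coe_eval₂RingHom, Polynomial.eval₂_eq_sum_range]
    exact Subring.sum_mem _ fun i _ => Subring.mul_mem _ (hr _) (Subring.pow_mem _ hϖ _)

variable {K₀ K F₀ F : Type*} [Field K₀] [Field K] [Field F₀] [Field F]
  [Algebra K₀ K] [Algebra K₀ F₀] [Algebra K F] [Algebra F₀ F]
  {A₀ : ValuationSubring K₀} {ϖ₀ : K₀} {A : ValuationSubring K} {ϖ : K} {e : ℕ} {a : ℕ → K₀}

variable {R₀ : Subring F₀}

/-- BC3b: `R₀[ϖ]` is noetherian. -/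
theorem lift_noeth (H : BCData A₀ ϖ₀ A ϖ e a F₀ F) (hR₀ : IsPt A₀ R₀) :
    IsNoetherianRing (liftR (algebraMap K F ϖ) R₀) := by
  have := hR₀.noeth
  rw [noeth_liftR_eq_range]
  exact isNoetherianRing_range _

end Fermat.Agent.S44.Depth

end
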