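/-
S44 / DEPTH, block BC (architect helper219), nodes BC3d, BC3 (task 2201):
`R₀[ϖ]` is integrally closed, and it is a point in the sense of `S36.BP.IsPt`.
-/
import Fermat.Agent.S44.Depth.BCDefs
import Fermat.Agent.S44.Depth.BC.Eis
import Fermat.Agent.S44.Depth.BC.LiftR
import Fermat.Agent.S44.Depth.BC.Rad
import Fermat.Agent.S44.Depth.BC.Noeth
import Fermat.Agent.S44.Depth.BC.Denom
import Fermat.Agent.S18.Chart.Const
import Fermat.Agent.S18.Chart.Unif

set_option autoImplicit false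

noncomputable section

namespace Fermat.Agent.S44.Depth

open Fermat.Agent.S18 Fermat.Agent.S36.BP

/-- an element integral over a subring of `W` lies in `W`. -/
private theorem ispt_mem_of_isIntegral {E : Type*} [Field E] {W : ValuationSubring E}
    {R : Subring E} (hR : ∀ b ∈ R, b ∈ W) {b : E} (hb : IsIntegral R b) : b ∈ W := by
  have h1 : IsIntegral W b :=
    isIntegral_of_forall_exists_algebraMap (fun r => ⟨⟨_, hR _ r.2⟩, rfl⟩) hb
  obtain ⟨y, rfl⟩ := (IsIntegrallyClosed.isIntegral_iff (R := W) (K := E)).mp h1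
  exact y.2

/-- only the first `e` coefficients matter. -/
private theorem ispt_esum_congr {E₀ E : Type*} [Field E₀] [Field E] [Algebra E₀ E] (ϖ : E) (e : ℕ)
    {c c' : ℕ → E₀} (h : ∀ i < e, c i = c' i) : esum ϖ e c = esum ϖ e c' := by
  unfold esum
  exact Finset.sum_congr rfl fun i hi => by rw [h i (Finset.mem_range.1 hi)]

private theorem ispt_esum_add {E₀ E : Type*} [Field E₀] [Field E] [Algebra E₀ E] (ϖ : E) (e : ℕ)
    (c c' : ℕ → E₀) : esum ϖ e c + esum ϖ e c' = esum ϖ e (fun i => c i + c' i) := by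
  simp only [esum, map_add, add_mul, Finset.sum_add_distrib]

private theorem ispt_esum_sub {E₀ E : Type*} [Field E₀] [Field E] [Algebra E₀ E] (ϖ : E) (e : ℕ)
    (c c' : ℕ → E₀) : esum ϖ e c - esum ϖ e c' = esum ϖ e (fun i => c i - c' i) := by
  simp only [esum, map_sub, sub_mul, Finset.sum_sub_distrib]

/-- a constant as an `esum`. -/
private theorem ispt_esum_single {E₀ E : Type*} [Field E₀] [Field E] [Algebra E₀ E] (ϖ : E)
    {e : ℕ} (he : 0 < e) (b : E₀) :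
    esum ϖ e (fun i => if i = 0 then b else 0) = algebraMap E₀ E b := by
  unfold esum
  rw [Finset.sum_eq_single 0]
  · simp
  · intro i _ hi
    simp [hi]
  · intro h
    exact absurd (Finset.mem_range.2 he) h

variable {K₀ K F₀ F : Type*} [Field K₀] [Field K] [Field F₀] [Field F]
  [Algebra K₀ K] [Algebra K₀ F₀] [Algebra K F] [Algebra F₀ F]
  {A₀ : ValuationSubring K₀} {ϖ₀ : K₀} {A : ValuationSubring K} {ϖ : K} {e : ℕ} {a : ℕ → K₀}

private theorem ispt_a_mem (H : BCData A₀ ϖ₀ A ϖ e a F₀ F) (i : ℕ) : a i ∈ A₀ := by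
  have h1 : a i = a i / ϖ₀ * ϖ₀ := (div_mul_cancel₀ _ H.unif₀.ne_zero).symm
  rw [h1]
  exact A₀.mul_mem _ _ (H.eisK.a_mem i) H.unif₀.mem

/-- push an `esum` over `K₀ ⊆ K` to `F`. -/
private theorem ispt_map_esum (H : BCData A₀ ϖ₀ A ϖ e a F₀ F) (c : ℕ → K₀) :
    algebraMap K F (esum ϖ e c) =
      esum (algebraMap K F ϖ) e (fun i => algebraMap K₀ F₀ (c i)) := by
  simp only [esum, map_sum, map_mul, map_pow, H.compat]

section Pt

variable {R₀ : Subring F₀} {ι : Type*} [Nonempty ι] {V₀ : ι → ValuationSubring F₀}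
  {V : ι → ValuationSubring F}

private theorem ispt_mem_iff (H : BCData A₀ ϖ₀ A ϖ e a F₀ F) (hR₀ : IsPt A₀ R₀) (z : F) :
    z ∈ liftR (algebraMap K F ϖ) R₀ ↔
      ∃ c : ℕ → F₀, (∀ i, c i ∈ R₀) ∧ z = esum (algebraMap K F ϖ) e c :=
  mem_liftR_iff (H.isEisF (V₀ := ⊤) fun _ _ => trivial) R₀
    (fun i => hR₀.const_mem _ (ispt_a_mem H i)) z

/-- membership from the first `e` coefficients. -/
private theorem ispt_esum_mem (H : BCData A₀ ϖ₀ A ϖ e a F₀ F) (hR₀ : IsPt A₀ R₀) {c : ℕ → F₀}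
    (hc : ∀ i < e, c i ∈ R₀) : esum (algebraMap K F ϖ) e c ∈ liftR (algebraMap K F ϖ) R₀ := by
  classical
  rw [ispt_mem_iff H hR₀]
  refine ⟨fun i => if i < e then c i else 0, fun i => ?_, ispt_esum_congr _ _ fun i hi => ?_⟩
  · show (if i < e then c i else 0) ∈ R₀
    split_ifs with h
    · exact hc i h
    · exact R₀.zero_mem
  · show c i = if i < e then c i else 0
    rw [if_pos hi]

/-- BC3d: `R₀[ϖ]` is integrally closed. -/
theorem lift_intClosed [CharZero F₀] (H : BCData A₀ ϖ₀ A ϖ e a F₀ F) (hR₀ : IsPt A₀ R₀)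
    (hU : ∀ j, IsUnif (V₀ j) (algebraMap K₀ F₀ ϖ₀)) (hext : ∀ j, Ext (V₀ j) (V j))
    (hle : ∀ j, ∀ r ∈ R₀, r ∈ V₀ j)
    (hqep : ∀ z : F₀, algebraMap K₀ F₀ ϖ₀ * z ∈ R₀ → (∀ j, z ∈ V₀ j) → z ∈ R₀)
    (z : F) (hz : IsIntegral (liftR (algebraMap K F ϖ) R₀) z) :
    z ∈ liftR (algebraMap K F ϖ) R₀ := by
  obtain ⟨c, rfl⟩ := H.spanF z
  have hE : ∀ j, IsEis (V₀ j) (algebraMap K₀ F₀ ϖ₀) (algebraMap K F ϖ) e
      (fun i => algebraMap K₀ F₀ (a i)) :=
    fun j => H.isEisF fun b hb => hle j _ (hR₀.const_mem _ hb)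
  -- `R₀[ϖ] ⊆ V j`
  have hRV : ∀ j, ∀ r ∈ liftR (algebraMap K F ϖ) R₀, r ∈ V j := by
    intro j r hr
    obtain ⟨c', hc', rfl⟩ := (ispt_mem_iff H hR₀ r).1 hr
    exact (eis_mem_iff (hU j) (hE j) (hext j) c').2 fun i _ => hle j _ (hc' i)
  have hcV : ∀ j, ∀ i < e, c i ∈ V₀ j := fun j =>
    (eis_mem_iff (hU j) (hE j) (hext j) c).1 (ispt_mem_of_isIntegral (hRV j) hz)
  obtain ⟨N, hN⟩ := lift_denom H hR₀ hU hext hle c hz
  -- descent
  have hdesc : ∀ (N : ℕ) (y : F₀), (∀ j, y ∈ V₀ j) → algebraMap K₀ F₀ ϖ₀ ^ N * y ∈ R₀ →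
      y ∈ R₀ := by
    intro N
    induction N with
    | zero =>
      intro y _ h
      simpa using h
    | succ N ih =>
      intro y hy h
      refine ih y hy (hqep _ ?_ fun j => ?_)
      · rw [← mul_assoc, ← pow_succ']
        exact h
      · exact (V₀ j).mul_mem _ _ ((V₀ j).pow_mem (hU j).mem N) (hy j)
  exact ispt_esum_mem H hR₀ fun i hi => hdesc N (c i) (fun j => hcV j i hi) (hN i hi)

/-- BC3: `R₀[ϖ]` is a point. -/
theorem lift_isPt [CharZero F₀] (H : BCData A₀ ϖ₀ A ϖ e a F₀ F) (hR₀ : IsPt A₀ R₀)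
    (hU : ∀ j, IsUnif (V₀ j) (algebraMap K₀ F₀ ϖ₀)) (hext : ∀ j, Ext (V₀ j) (V j))
    (hle : ∀ j, ∀ r ∈ R₀, r ∈ V₀ j)
    (hqep : ∀ z : F₀, algebraMap K₀ F₀ ϖ₀ * z ∈ R₀ → (∀ j, z ∈ V₀ j) → z ∈ R₀) :
    IsPt A (liftR (algebraMap K F ϖ) R₀) where
  add_rad := by
    intro x hx y hy
    obtain ⟨c, hc, rfl⟩ := (ispt_mem_iff H hR₀ x).1 hx.1
    obtain ⟨c', hc', rfl⟩ := (ispt_mem_iff H hR₀ y).1 hy.1
    rw [mem_rad_liftR_iff H hR₀ c hc] at hx
    rw [mem_rad_liftR_iff H hR₀ c' hc'] at hy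
    rw [ispt_esum_add, mem_rad_liftR_iff H hR₀ _ fun i => R₀.add_mem (hc i) (hc' i)]
    exact hR₀.add_rad _ hx _ hy
  const_mem := by
    intro b hb
    obtain ⟨c, rfl⟩ := H.eisK.span b
    have hc := (eis_mem_iff H.unif₀ H.eisK H.extA c).1 hb
    rw [ispt_map_esum H]
    exact ispt_esum_mem H hR₀ fun i hi => hR₀.const_mem _ (hc i hi)
  const_rad := by
    classical
    intro b hb
    obtain ⟨c, rfl⟩ := H.eisK.span b
    obtain ⟨hc, hc0⟩ := (eis_lt_iff H.unif₀ H.eisK H.extA c).1 hb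
    rw [ispt_map_esum H, ispt_esum_congr (c' := fun i => if i < e then algebraMap K₀ F₀ (c i) else 0)
      _ _ fun i hi => (if_pos hi).symm, mem_rad_liftR_iff H hR₀]
    · show (if 0 < e then algebraMap K₀ F₀ (c 0) else 0) ∈ rad R₀
      rw [if_pos H.eisK.e_pos]
      exact hR₀.const_rad _ hc0
    · intro i
      show (if i < e then algebraMap K₀ F₀ (c i) else 0) ∈ R₀
      split_ifs with h
      · exact hR₀.const_mem _ (hc i h)
      · exact R₀.zero_mem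
  res := by
    classical
    intro r hr
    obtain ⟨c, hc, rfl⟩ := (ispt_mem_iff H hR₀ r).1 hr
    obtain ⟨a₀, ha₀, h⟩ := hR₀.res (c 0) (hc 0)
    refine ⟨algebraMap K₀ K a₀, (H.extA a₀).2 ha₀, ?_⟩
    rw [H.compat, ← ispt_esum_single (algebraMap K F ϖ) H.eisK.e_pos (algebraMap K₀ F₀ a₀),
      ispt_esum_sub, mem_rad_liftR_iff H hR₀]
    · simpa using h
    · intro i
      refine R₀.sub_mem (hc i) ?_
      split_ifs
      · exact hR₀.const_mem _ ha₀
      · exact R₀.zero_mem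
  intClosed := fun z hz => lift_intClosed H hR₀ hU hext hle hqep z hz
  noeth := lift_noeth H hR₀

end Pt

end Fermat.Agent.S44.Depth

end
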