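/-
S44 / DEPTH, block BC, node BC4 (helper263): the `q`-expansion principle for `R₀[ϖ]`.
-/
import Fermat.Agent.S44.Depth.BCDefs
import Fermat.Agent.S44.Depth.BC.Eis
import Fermat.Agent.S44.Depth.BC.LiftR

set_option autoImplicit false

noncomputable section

namespace Fermat.Agent.S44.Depth

open Fermat.Agent.S18 Fermat.Agent.S36.BP

section Pair

variable {E₀ E : Type*} [Field E₀] [Field E] [Algebra E₀ E]

/-- the coefficients of `ϖ * esum c` -/
private def qepShift (n : ℕ) (a c : ℕ → E₀) : ℕ → E₀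
  | 0 => c n * a 0
  | k + 1 => c k + c n * a (k + 1)

private theorem qep_mul_esum (ϖ : E) (n : ℕ) (a c : ℕ → E₀)
    (h : ϖ ^ (n + 1) = esum ϖ (n + 1) a) :
    ϖ * esum ϖ (n + 1) c = esum ϖ (n + 1) (qepShift n a c) := by
  unfold esum at *
  rw [Finset.sum_range_succ, mul_add, Finset.sum_range_succ' (fun i =>
    algebraMap E₀ E (qepShift n a c i) * ϖ ^ i)]
  have h1 : ϖ * (algebraMap E₀ E (c n) * ϖ ^ n) = algebraMap E₀ E (c n) * ϖ ^ (n + 1) := by
    rw [pow_succ]; ring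
  rw [h1, h, Finset.sum_range_succ' (fun i => algebraMap E₀ E (a i) * ϖ ^ i), mul_add,
    Finset.mul_sum, Finset.mul_sum, ← add_assoc, ← Finset.sum_add_distrib]
  congr 1
  · refine Finset.sum_congr rfl fun i _ => ?_
    show _ = algebraMap E₀ E (c i + c n * a (i + 1)) * ϖ ^ (i + 1)
    rw [map_add, map_mul, pow_succ]
    ring
  · show _ = algebraMap E₀ E (c n * a 0) * ϖ ^ 0
    rw [map_mul]
    ring

private theorem qep_esum_sub (ϖ : E) (e : ℕ) (c c' : ℕ → E₀) :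
    esum ϖ e (fun i => c i - c' i) = esum ϖ e c - esum ϖ e c' := by
  unfold esum
  rw [← Finset.sum_sub_distrib]
  refine Finset.sum_congr rfl fun i _ => ?_
  rw [map_sub, sub_mul]

private theorem qep_esum_congr (ϖ : E) (e : ℕ) {c c' : ℕ → E₀} (h : ∀ i < e, c i = c' i) :
    esum ϖ e c = esum ϖ e c' := by
  unfold esum
  refine Finset.sum_congr rfl fun i hi => ?_
  rw [h i (Finset.mem_range.1 hi)]

end Pair

variable {K₀ K F₀ F : Type*} [Field K₀] [Field K] [Field F₀] [Field F]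
  [Algebra K₀ K] [Algebra K₀ F₀] [Algebra K F] [Algebra F₀ F]
  {A₀ : ValuationSubring K₀} {ϖ₀ : K₀} {A : ValuationSubring K} {ϖ : K} {e : ℕ} {a : ℕ → K₀}

section Pt

variable {R₀ : Subring F₀} {ι : Type*} [Nonempty ι] {V₀ : ι → ValuationSubring F₀}
  {V : ι → ValuationSubring F}

/-- BC4: the `q`-expansion principle for `R₀[ϖ]`. -/
theorem lift_qep (H : BCData A₀ ϖ₀ A ϖ e a F₀ F) (hR₀ : IsPt A₀ R₀)
    (hU : ∀ j, IsUnif (V₀ j) (algebraMap K₀ F₀ ϖ₀)) (hext : ∀ j, Ext (V₀ j) (V j))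
    (hle : ∀ j, ∀ r ∈ R₀, r ∈ V₀ j)
    (hqep : ∀ z : F₀, algebraMap K₀ F₀ ϖ₀ * z ∈ R₀ → (∀ j, z ∈ V₀ j) → z ∈ R₀)
    (z : F) (hz : algebraMap K F ϖ * z ∈ liftR (algebraMap K F ϖ) R₀) (hV : ∀ j, z ∈ V j) :
    z ∈ liftR (algebraMap K F ϖ) R₀ := by
  classical
  have hE : ∀ j, IsEis (V₀ j) (algebraMap K₀ F₀ ϖ₀) (algebraMap K F ϖ) e
      (fun i => algebraMap K₀ F₀ (a i)) := fun j =>
    H.isEisF fun c hc => hle j _ (hR₀.const_mem c hc)
  obtain ⟨j₀⟩ := ‹Nonempty ι›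
  have hϖ₀ : ϖ₀ ≠ 0 := by
    intro h0
    apply H.unif₀.inv_notMem
    rw [h0, inv_zero]
    exact A₀.zero_mem
  have haA : ∀ i, a i ∈ A₀ := by
    intro i
    have h1 : a i = a i / ϖ₀ * ϖ₀ := by field_simp
    rw [h1]
    exact A₀.mul_mem _ _ (H.eisK.a_mem i) H.unif₀.mem
  have haR : ∀ i, algebraMap K₀ F₀ (a i) ∈ R₀ := fun i => hR₀.const_mem _ (haA i)
  obtain ⟨n, rfl⟩ : ∃ n, e = n + 1 := ⟨e - 1, (Nat.sub_add_cancel H.eisK.e_pos).symm⟩
  obtain ⟨c, rfl⟩ := H.spanF z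
  have hcV : ∀ j, ∀ i < n + 1, c i ∈ V₀ j := fun j =>
    (eis_mem_iff (hU j) (hE j) (hext j) c).1 (hV j)
  rw [qep_mul_esum _ n (fun i => algebraMap K₀ F₀ (a i)) c (hE j₀).eis,
    mem_liftR_iff (hE j₀) R₀ haR] at hz
  obtain ⟨c', hc', e'⟩ := hz
  have hcc : ∀ i < n + 1, qepShift n (fun i => algebraMap K₀ F₀ (a i)) c i = c' i := by
    intro i hi
    have h0 := eis_indep (hU j₀) (hE j₀) (hext j₀)
      (fun i => qepShift n (fun i => algebraMap K₀ F₀ (a i)) c i - c' i)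
      (by rw [qep_esum_sub, e', sub_self]) i hi
    exact sub_eq_zero.1 h0
  -- the top coefficient
  have hn : c n ∈ R₀ := by
    apply hqep _ _ (fun j => hcV j n (Nat.lt_succ_self n))
    have h0 : c n * algebraMap K₀ F₀ (a 0) ∈ R₀ := by
      have := hcc 0 (Nat.succ_pos n)
      have h1 : qepShift n (fun i => algebraMap K₀ F₀ (a i)) c 0 =
        c n * algebraMap K₀ F₀ (a 0) := rfl
      rw [← h1, this]
      exact hc' 0
    have hu : (a 0 / ϖ₀)⁻¹ ∈ A₀ := by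
      rw [← A₀.valuation_le_one_iff, map_inv₀, H.eisK.a_zero, inv_one]
    have ha0 : a 0 ≠ 0 := by
      intro h
      have := H.eisK.a_zero
      rw [h, zero_div, map_zero] at this
      exact zero_ne_one this
    have h2 : algebraMap K₀ F₀ ϖ₀ * c n =
        c n * algebraMap K₀ F₀ (a 0) * algebraMap K₀ F₀ ((a 0 / ϖ₀)⁻¹) := by
      rw [mul_assoc, ← map_mul]
      have : a 0 * (a 0 / ϖ₀)⁻¹ = ϖ₀ := by field_simp
      rw [this, mul_comm]
    rw [h2]
    exact R₀.mul_mem h0 (hR₀.const_mem _ hu)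
  have hall : ∀ i < n + 1, c i ∈ R₀ := by
    intro i hi
    rcases Nat.lt_succ_iff_lt_or_eq.1 hi with h | rfl
    · have := hcc (i + 1) (Nat.succ_lt_succ h)
      have h1 : qepShift n (fun i => algebraMap K₀ F₀ (a i)) c (i + 1) =
        c i + c n * algebraMap K₀ F₀ (a (i + 1)) := rfl
      rw [h1] at this
      have h2 : c i = c' (i + 1) - c n * algebraMap K₀ F₀ (a (i + 1)) := by
        rw [← this]; ring
      rw [h2]
      exact R₀.sub_mem (hc' _) (R₀.mul_mem hn (haR _))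
    · exact hn
  rw [mem_liftR_iff (hE j₀) R₀ haR]
  refine ⟨fun i => if i < n + 1 then c i else 0, fun i => ?_, qep_esum_congr _ _ fun i hi => ?_⟩
  · by_cases hi : i < n + 1
    · simp only [if_pos hi]; exact hall i hi
    · simp only [if_neg hi]; exact R₀.zero_mem
  · simp only [if_pos hi]

end Pt

end Fermat.Agent.S44.Depth

end
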