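/-
S44 / DEPTH (architect helper219), block BC, node BC7 (proved by helper148): global regular
functions after base change along an Eisenstein extension.
-/
import Fermat.Agent.S44.Depth.BC.Eis
import Fermat.Agent.S44.Depth.BC.LiftR

set_option autoImplicit false

noncomputable section

namespace Fermat.Agent.S44.Depth

open Fermat.Agent.S18 Fermat.Agent.S36.BP

private theorem reg_esum_sub {E₀ E : Type*} [Field E₀] [Field E] [Algebra E₀ E] (ϖ : E) (e : ℕ)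
    (c d : ℕ → E₀) : esum ϖ e c - esum ϖ e d = esum ϖ e (fun i => c i - d i) := by
  unfold esum
  rw [← Finset.sum_sub_distrib]
  refine Finset.sum_congr rfl fun i _ => ?_
  rw [map_sub, sub_mul]

private theorem reg_esum_const {E₀ E : Type*} [Field E₀] [Field E] [Algebra E₀ E] (ϖ : E) {e : ℕ}
    (he : 0 < e) (z : E₀) : esum ϖ e (fun i => if i = 0 then z else 0) = algebraMap E₀ E z := by
  unfold esum
  rw [Finset.sum_eq_single 0]
  · simp
  · intro i _ hi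
    simp [hi]
  · intro h
    exact absurd (Finset.mem_range.2 he) h

variable {K₀ K F₀ F : Type*} [Field K₀] [Field K] [Field F₀] [Field F]
  [Algebra K₀ K] [Algebra K₀ F₀] [Algebra K F] [Algebra F₀ F]
  {A₀ : ValuationSubring K₀} {ϖ₀ : K₀} {A : ValuationSubring K} {ϖ : K} {e : ℕ} {a : ℕ → K₀}

variable {V₀ : ValuationSubring F₀} {V : ValuationSubring F}

/-- BC7: global regular functions. -/
theorem lift_reg (H : BCData A₀ ϖ₀ A ϖ e a F₀ F) (hU : IsUnif V₀ (algebraMap K₀ F₀ ϖ₀))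
    (hext : Ext V₀ V) (hc : ∀ c ∈ A₀, algebraMap K₀ F₀ c ∈ V₀) {Pts₀ : Set (Subring F₀)}
    (hPts : ∀ R₀ ∈ Pts₀, IsPt A₀ R₀ ∧ ∀ r ∈ R₀, r ∈ V₀)
    (hreg : ∀ f ∈ V₀, (∀ R₀ ∈ Pts₀, ∃ ρ ∈ R₀, V₀.valuation (f - ρ) < 1) →
      ∃ c ∈ A₀, V₀.valuation (f - algebraMap K₀ F₀ c) < 1) :
    ∀ f ∈ V, (∀ R ∈ liftR (algebraMap K F ϖ) '' Pts₀, ∃ ρ ∈ R, V.valuation (f - ρ) < 1) →
      ∃ c ∈ A, V.valuation (f - algebraMap K F c) < 1 := by
  intro f hf hloc
  have hE := H.isEisF hc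
  have he : 0 < e := hE.e_pos
  obtain ⟨c, rfl⟩ := H.spanF f
  have hcV : ∀ i < e, c i ∈ V₀ := (eis_mem_iff hU hE hext c).1 hf
  -- the coefficients of the Eisenstein polynomial are integral
  have haA : ∀ i, a i ∈ A₀ := by
    intro i
    have h1 := A₀.mul_mem _ _ (H.eisK.a_mem i) H.unif₀.mem
    have h0 : ϖ₀ ≠ 0 := by
      intro h0
      apply H.unif₀.inv_notMem
      rw [h0, inv_zero]
      exact A₀.zero_mem
    rwa [div_mul_cancel₀ _ h0] at h1
  obtain ⟨c', hc'A, hc'⟩ := hreg (c 0) (hcV 0 he) (by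
    intro R₀ hR₀
    obtain ⟨ρ, hρ, hlt⟩ := hloc _ ⟨R₀, hR₀, rfl⟩
    obtain ⟨d, hd, rfl⟩ := (mem_liftR_iff hE R₀
      (fun i => (hPts R₀ hR₀).1.const_mem _ (haA i)) ρ).1 hρ
    rw [reg_esum_sub] at hlt
    exact ⟨d 0, hd 0, ((eis_lt_iff hU hE hext _).1 hlt).2⟩)
  refine ⟨algebraMap K₀ K c', (H.extA c').2 hc'A, ?_⟩
  rw [H.compat, ← reg_esum_const (algebraMap K F ϖ) he (algebraMap K₀ F₀ c'), reg_esum_sub,
    eis_lt_iff hU hE hext]
  refine ⟨?_, ?_⟩
  · intro i hi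
    by_cases h0 : i = 0
    · subst h0
      simpa using V₀.sub_mem (hcV 0 he) (hc c' hc'A)
    · simpa [h0] using hcV i hi
  · simpa using hc'

end Fermat.Agent.S44.Depth

end
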