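/-
S44 / DEPTH, block BC (architect helper219), task DEPTH-BC5: the component `V` passes through the
point `R₀[ϖ]` as soon as `V₀` passes through `R₀`.
-/
import Fermat.Agent.S44.Depth.BC.Eis
import Fermat.Agent.S44.Depth.BC.LiftR
import Fermat.Agent.S44.Depth.BC.Rad

set_option autoImplicit false

noncomputable section

namespace Fermat.Agent.S44.Depth

open Fermat.Agent.S18 Fermat.Agent.S36.BP

section ThroughAux

variable {E₀ E : Type*} [Field E₀] [Field E] [Algebra E₀ E]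

/-- a constant as an `esum`. -/
private theorem through_esum_single (ϖ : E) {e : ℕ} (he : 0 < e) (x : E₀) :
    esum ϖ e (fun i => if i = 0 then x else 0) = algebraMap E₀ E x := by
  unfold esum
  rw [Finset.sum_eq_single 0]
  · simp
  · intro i _ hi
    simp [hi]
  · intro h
    exact absurd (Finset.mem_range.2 he) h

private theorem through_esum_sub (ϖ : E) (e : ℕ) (c d : ℕ → E₀) :
    esum ϖ e (fun i => c i - d i) = esum ϖ e c - esum ϖ e d := by
  unfold esum
  rw [← Finset.sum_sub_distrib]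
  exact Finset.sum_congr rfl fun i _ => by rw [map_sub, sub_mul]

private theorem through_esum_smul (ϖ : E) (e : ℕ) (s : E₀) (c : ℕ → E₀) :
    esum ϖ e (fun i => if i < e then s * c i else 0) = algebraMap E₀ E s * esum ϖ e c := by
  unfold esum
  rw [Finset.mul_sum]
  refine Finset.sum_congr rfl fun i hi => ?_
  show algebraMap E₀ E (if i < e then s * c i else 0) * ϖ ^ i = _
  rw [if_pos (Finset.mem_range.1 hi), map_mul, mul_assoc]

private theorem through_val_algebraMap {V₀ : ValuationSubring E₀} {V : ValuationSubring E}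
    (hV : Ext V₀ V) {s : E₀} (hs : V₀.valuation s = 1) : V.valuation (algebraMap E₀ E s) = 1 := by
  have h1 : s ∈ V₀ := (V₀.valuation_le_one_iff s).1 hs.le
  have h2 : s⁻¹ ∈ V₀ := (V₀.valuation_le_one_iff _).1 (by rw [map_inv₀, hs, inv_one])
  have h3 : V.valuation (algebraMap E₀ E s) ≤ 1 := (V.valuation_le_one_iff _).2 ((hV s).2 h1)
  have h4 : V.valuation (algebraMap E₀ E s)⁻¹ ≤ 1 := by
    rw [← map_inv₀]
    exact (V.valuation_le_one_iff _).2 ((hV _).2 h2)
  have hs0 : s ≠ 0 := by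
    rintro rfl
    rw [map_zero] at hs
    exact zero_ne_one hs
  have h0 : V.valuation (algebraMap E₀ E s) ≠ 0 := by
    rw [Ne, map_eq_zero, map_eq_zero]
    exact hs0
  rw [map_inv₀, inv_le_one₀ (zero_lt_iff.2 h0)] at h4
  exact le_antisymm h3 h4

end ThroughAux

variable {K₀ K F₀ F : Type*} [Field K₀] [Field K] [Field F₀] [Field F]
  [Algebra K₀ K] [Algebra K₀ F₀] [Algebra K F] [Algebra F₀ F]
  {A₀ : ValuationSubring K₀} {ϖ₀ : K₀} {A : ValuationSubring K} {ϖ : K} {e : ℕ} {a : ℕ → K₀}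

section One

variable {R₀ : Subring F₀} {V₀ : ValuationSubring F₀} {V : ValuationSubring F}

/-- the coefficients of the Eisenstein polynomial lie in `R₀`. -/
private theorem through_a_mem (H : BCData A₀ ϖ₀ A ϖ e a F₀ F) (hR₀ : IsPt A₀ R₀) (i : ℕ) :
    algebraMap K₀ F₀ (a i) ∈ R₀ := by
  apply hR₀.const_mem
  have hϖ : ϖ₀ ≠ 0 := by
    rintro rfl
    exact H.unif₀.inv_notMem (by rw [inv_zero]; exact A₀.zero_mem)
  have := A₀.mul_mem _ _ (H.eisK.a_mem i) H.unif₀.mem
  rwa [div_mul_cancel₀ _ hϖ] at this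

private theorem through_algebraMap_mem (x : F) {r : F₀} (hr : r ∈ R₀) :
    algebraMap F₀ F r ∈ liftR x R₀ :=
  Subring.subset_closure (Or.inl ⟨r, hr, rfl⟩)

/-- BC5a. -/
theorem lift_dvr (H : BCData A₀ ϖ₀ A ϖ e a F₀ F) (hR₀ : IsPt A₀ R₀)
    (hU : IsUnif V₀ (algebraMap K₀ F₀ ϖ₀)) (hext : Ext V₀ V) (hle : ∀ r ∈ R₀, r ∈ V₀) {t₀ : F₀}
    (h : ∀ r ∈ rad R₀, ∃ s ∈ R₀, V₀.valuation (r - s * t₀) < 1) :
    ∀ r ∈ rad (liftR (algebraMap K F ϖ) R₀), ∃ s ∈ liftR (algebraMap K F ϖ) R₀,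
      V.valuation (r - s * algebraMap F₀ F t₀) < 1 := by
  intro r hr
  have hE := H.isEisF (V₀ := V₀) fun c hc => hle _ (hR₀.const_mem c hc)
  obtain ⟨c, hc, rfl⟩ := (mem_liftR_iff hE R₀ (through_a_mem H hR₀) r).1 hr.1
  obtain ⟨s, hs, hst⟩ := h _ ((mem_rad_liftR_iff H hR₀ c hc).1 hr)
  refine ⟨algebraMap F₀ F s, through_algebraMap_mem _ hs, ?_⟩
  rw [← map_mul, ← through_esum_single (algebraMap K F ϖ) hE.e_pos (s * t₀), ← through_esum_sub,
    eis_lt_iff hU hE hext]
  refine ⟨fun i _ => ?_, by simpa using hst⟩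
  by_cases hi : i = 0
  · subst hi
    simpa using (V₀.valuation_le_one_iff _).1 hst.le
  · simpa [hi] using hle _ (hc i)

/-- BC5. -/
theorem lift_through (H : BCData A₀ ϖ₀ A ϖ e a F₀ F) (hR₀ : IsPt A₀ R₀)
    (hU : IsUnif V₀ (algebraMap K₀ F₀ ϖ₀)) (hext : Ext V₀ V) (hT : Through R₀ V₀) :
    Through (liftR (algebraMap K F ϖ) R₀) V := by
  have hE := H.isEisF (V₀ := V₀) fun c hc => hT.le _ (hR₀.const_mem c hc)
  refine ⟨?_, ?_, ?_⟩
  · intro r hr
    obtain ⟨c, hc, rfl⟩ := (mem_liftR_iff hE R₀ (through_a_mem H hR₀) r).1 hr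
    exact (eis_mem_iff hU hE hext c).2 fun i _ => hT.le _ (hc i)
  · intro y hy
    obtain ⟨c, rfl⟩ := hE.span y
    have hc := (eis_mem_iff hU hE hext c).1 hy
    have hex : ∀ i, ∃ s ∈ R₀, V₀.valuation s = 1 ∧ (i < e → s * c i ∈ R₀) := by
      intro i
      by_cases hi : i < e
      · obtain ⟨s, hs, hs1, hsc⟩ := hT.loc _ (hc i hi)
        exact ⟨s, hs, hs1, fun _ => hsc⟩
      · exact ⟨1, R₀.one_mem, map_one _, fun h => absurd h hi⟩
    choose s hs hs1 hsc using hex
    refine ⟨algebraMap F₀ F (∏ i ∈ Finset.range e, s i),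
      through_algebraMap_mem _ (Subring.prod_mem _ fun i _ => hs i),
      through_val_algebraMap hext ?_, ?_⟩
    · rw [map_prod]
      exact Finset.prod_eq_one fun i _ => hs1 i
    · rw [← through_esum_smul]
      refine (mem_liftR_iff hE R₀ (through_a_mem H hR₀) _).2 ⟨_, fun i => ?_, rfl⟩
      by_cases hi : i < e
      · rw [if_pos hi, ← Finset.mul_prod_erase _ _ (Finset.mem_range.2 hi), mul_right_comm]
        exact R₀.mul_mem (hsc i hi) (Subring.prod_mem _ fun j _ => hs j)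
      · rw [if_neg hi]
        exact R₀.zero_mem
  · obtain ⟨t₀, ht₀, h⟩ := hT.dvr
    refine ⟨algebraMap F₀ F t₀, ?_, lift_dvr H hR₀ hU hext hT.le h⟩
    rw [← through_esum_single (algebraMap K F ϖ) hE.e_pos t₀, mem_rad_liftR_iff H hR₀]
    · simpa using ht₀
    · intro i
      by_cases hi : i = 0
      · simpa [hi] using ht₀.1
      · simp [hi]

end One

end Fermat.Agent.S44.Depth

end
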