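import Fermat.Agent.S44.Depth.BCDefs
import Fermat.Agent.S36.BP.Rad
import Fermat.Agent.S44.Depth.BC.Eis
import Fermat.Agent.S44.Depth.BC.LiftR
import Fermat.Agent.S44.Depth.BC.Rad
import Fermat.Agent.S44.Depth.BC.IsPt
import Fermat.Agent.S44.Depth.BC.Qep
import Fermat.Agent.S44.Depth.BC.Through
import Fermat.Agent.S44.Depth.BC.Fin
import Fermat.Agent.S44.Depth.BC.Reg

/-!
# S44 / DEPTH, block BC, node BC8: base change of the nodal model (assembly)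
(architect helper219, proof helper183)
-/

set_option autoImplicit false

noncomputable section

namespace Fermat.Agent.S44.Depth

open Fermat.Agent.S18 Fermat.Agent.S36.BP

section Pair

variable {E₀ E : Type*} [Field E₀] [Field E] [Algebra E₀ E] {V₀ : ValuationSubring E₀}
  {V : ValuationSubring E}

private theorem bc8_val_eq_one (hV : Ext V₀ V) {z : E₀} (hz : V₀.valuation z = 1) :
    V.valuation (algebraMap E₀ E z) = 1 := by
  obtain ⟨h0, h1, h2⟩ := val_eq_one_iff.1 hz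
  refine val_eq_one_iff.2 ⟨by simpa using h0, (hV z).2 h1, ?_⟩
  rw [← map_inv₀]
  exact (hV _).2 h2

private theorem bc8_esum_single (ϖ : E) {e : ℕ} (he : 0 < e) (z : E₀) :
    esum ϖ e (fun i => if i = 0 then z else 0) = algebraMap E₀ E z := by
  unfold esum
  rw [Finset.sum_eq_single 0]
  · simp
  · intro i _ hi
    simp [hi]
  · intro h
    exact absurd (Finset.mem_range.2 he) h

end Pair

variable {K₀ K F₀ F : Type*} [Field K₀] [Field K] [Field F₀] [Field F]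
  [Algebra K₀ K] [Algebra K₀ F₀] [Algebra K F] [Algebra F₀ F]
  {A₀ : ValuationSubring K₀} {ϖ₀ : K₀} {A : ValuationSubring K} {ϖ : K} {e : ℕ} {a : ℕ → K₀}

private theorem bc8_map_esum (H : BCData A₀ ϖ₀ A ϖ e a F₀ F) (c : ℕ → K₀) :
    algebraMap K F (esum ϖ e c) =
      esum (algebraMap K F ϖ) e (fun i => algebraMap K₀ F₀ (c i)) := by
  unfold esum
  rw [map_sum]
  refine Finset.sum_congr rfl fun i _ => ?_
  rw [map_mul, map_pow, H.compat]

private theorem bc8_const (H : BCData A₀ ϖ₀ A ϖ e a F₀ F) {V₀ : ValuationSubring F₀}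
    {V : ValuationSubring F} (hU : IsUnif V₀ (algebraMap K₀ F₀ ϖ₀)) (hext : Ext V₀ V)
    (hc : ∀ c ∈ A₀, algebraMap K₀ F₀ c ∈ V₀) : ∀ b ∈ A, algebraMap K F b ∈ V := by
  intro b hb
  obtain ⟨c, rfl⟩ := H.eisK.span b
  have h1 := (eis_mem_iff H.unif₀ H.eisK H.extA c).1 hb
  rw [bc8_map_esum H, eis_mem_iff hU (H.isEisF hc) hext]
  exact fun i hi => hc _ (h1 i hi)

private theorem bc8_mem_rad (H : BCData A₀ ϖ₀ A ϖ e a F₀ F) {R₀ : Subring F₀} (hR₀ : IsPt A₀ R₀)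
    {z : F₀} (hz : z ∈ rad R₀) : algebraMap F₀ F z ∈ rad (liftR (algebraMap K F ϖ) R₀) := by
  rw [← bc8_esum_single (algebraMap K F ϖ) H.eisK.e_pos z, mem_rad_liftR_iff H hR₀]
  · simpa using hz
  · intro i
    by_cases hi : i = 0
    · simpa [hi] using hz.1
    · simp [hi]

section One

variable {R₀ : Subring F₀} {V₀ : ValuationSubring F₀} {V : ValuationSubring F}

/-- BC8a. -/
theorem lift_isSm [CharZero F₀] (H : BCData A₀ ϖ₀ A ϖ e a F₀ F)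
    (hU : IsUnif V₀ (algebraMap K₀ F₀ ϖ₀)) (hext : Ext V₀ V) (hS : IsSm A₀ ϖ₀ V₀ R₀) :
    IsSm A ϖ V (liftR (algebraMap K F ϖ) R₀) where
  isPt := lift_isPt (ι := Unit) (V₀ := fun _ => V₀) (V := fun _ => V) H hS.isPt (fun _ => hU)
    (fun _ => hext) (fun _ => hS.thr.le) (fun z hz hV => hS.qep z hz (hV ()))
  thr := lift_through H hS.isPt hU hext hS.thr
  qep := fun z hz hV => lift_qep (ι := Unit) (V₀ := fun _ => V₀) (V := fun _ => V) H hS.isPt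
    (fun _ => hU) (fun _ => hext) (fun _ => hS.thr.le) (fun z hz hV => hS.qep z hz (hV ())) z hz
    (fun _ => hV)

end One

variable {Vi₀ V0₀ : ValuationSubring F₀} {Vi V0 : ValuationSubring F} {x₀ y₀ : F₀}
  {Smi₀ Sm0₀ Nd₀ : Set (Subring F₀)} {e₀ : ℕ}

/-- BC8b. -/
theorem lift_isNode [CharZero F₀] (H : BCData A₀ ϖ₀ A ϖ e a F₀ F)
    (hUi : IsUnif Vi₀ (algebraMap K₀ F₀ ϖ₀)) (hU0 : IsUnif V0₀ (algebraMap K₀ F₀ ϖ₀))
    (hi : Ext Vi₀ Vi) (h0 : Ext V0₀ V0) {R₀ : Subring F₀} (hN : IsNode A₀ ϖ₀ Vi₀ V0₀ x₀ y₀ R₀) :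
    IsNode A ϖ Vi V0 (algebraMap F₀ F x₀) (algebraMap F₀ F y₀) (liftR (algebraMap K F ϖ) R₀) := by
  have hU : ∀ j : Bool, IsUnif (cond j Vi₀ V0₀) (algebraMap K₀ F₀ ϖ₀) := by
    intro j; cases j
    · exact hU0
    · exact hUi
  have hext : ∀ j : Bool, Ext (cond j Vi₀ V0₀) (cond j Vi V0) := by
    intro j; cases j
    · exact h0
    · exact hi
  have hle : ∀ j : Bool, ∀ r ∈ R₀, r ∈ cond j Vi₀ V0₀ := by
    intro j; cases j
    · exact hN.thr0.le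
    · exact hN.thri.le
  have hqep : ∀ z : F₀, algebraMap K₀ F₀ ϖ₀ * z ∈ R₀ → (∀ j : Bool, z ∈ cond j Vi₀ V0₀) → z ∈ R₀ :=
    fun z hz hV => hN.qep z hz (hV true) (hV false)
  refine ⟨?_, lift_through H hN.isPt hUi hi hN.thri, lift_through H hN.isPt hU0 h0 hN.thr0,
    bc8_mem_rad H hN.isPt hN.x_rad, bc8_mem_rad H hN.isPt hN.y_rad,
    lift_dvr H hN.isPt hUi hi hN.thri.le hN.dvri, lift_dvr H hN.isPt hU0 h0 hN.thr0.le hN.dvr0,
    ?_, lift_fin H hN.isPt hN.fin⟩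
  · exact lift_isPt (ι := Bool) (V₀ := fun j => cond j Vi₀ V0₀) (V := fun j => cond j Vi V0) H
      hN.isPt hU hext hle hqep
  · intro z hz hzi hz0
    refine lift_qep (ι := Bool) (V₀ := fun j => cond j Vi₀ V0₀) (V := fun j => cond j Vi V0) H
      hN.isPt hU hext hle hqep z hz ?_
    intro j; cases j
    · exact hz0
    · exact hzi

/-- BC8: **base change of the nodal model.** -/
theorem lift_nodalModel [CharZero F₀] (H : BCData A₀ ϖ₀ A ϖ e a F₀ F)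
    (M₀ : NodalModel A₀ ϖ₀ e₀ Vi₀ V0₀ x₀ y₀ Smi₀ Sm0₀ Nd₀) (hi : Ext Vi₀ Vi) (h0 : Ext V0₀ V0) :
    NodalModel A ϖ (e₀ * e) Vi V0 (algebraMap F₀ F x₀) (algebraMap F₀ F y₀)
      (liftR (algebraMap K F ϖ) '' Smi₀) (liftR (algebraMap K F ϖ) '' Sm0₀)
      (liftR (algebraMap K F ϖ) '' Nd₀) where
  unifA := eis_unif H.unif₀ H.eisK H.extA
  unifi := eis_unif M₀.unifi (H.isEisF M₀.consti) hi
  unif0 := eis_unif M₀.unif0 (H.isEisF M₀.const0) h0
  consti := bc8_const H M₀.unifi hi M₀.consti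
  const0 := bc8_const H M₀.unif0 h0 M₀.const0
  e_pos := Nat.mul_pos M₀.e_pos H.eisK.e_pos
  xy := by
    obtain ⟨c₀, hv, hxy⟩ := M₀.xy
    refine ⟨algebraMap K₀ K c₀, ?_, ?_⟩
    · have hϖ0 : ϖ₀ ≠ 0 := by
        intro h
        apply H.unif₀.inv_notMem
        rw [h, inv_zero]
        exact A₀.zero_mem
      have hvϖ : A₀.valuation ϖ₀ ≠ 0 := (Valuation.ne_zero_iff _).2 hϖ0
      have h1 : A₀.valuation (c₀ / ϖ₀ ^ e₀) = 1 := by
        rw [map_div₀, map_pow, hv, div_self (pow_ne_zero _ hvϖ)]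
      have h2 := bc8_val_eq_one H.extA h1
      rw [map_div₀, map_div₀, map_pow, map_pow, ← eis_val_pow H.unif₀ H.eisK H.extA,
        ← pow_mul, mul_comm e e₀] at h2
      have hϖ : A.valuation ϖ ^ (e₀ * e) ≠ 0 := by
        intro h
        rw [h, div_zero] at h2
        exact zero_ne_one h2
      exact (div_eq_one_iff_eq hϖ).1 h2
    · rw [← map_mul, hxy, H.compat]
  x_i := bc8_val_eq_one hi M₀.x_i
  y_0 := bc8_val_eq_one h0 M₀.y_0
  smi := by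
    rintro _ ⟨R₀, hR₀, rfl⟩
    exact lift_isSm H M₀.unifi hi (M₀.smi R₀ hR₀)
  sm0 := by
    rintro _ ⟨R₀, hR₀, rfl⟩
    exact lift_isSm H M₀.unif0 h0 (M₀.sm0 R₀ hR₀)
  nd := by
    rintro _ ⟨R₀, hR₀, rfl⟩
    exact lift_isNode H M₀.unifi M₀.unif0 hi h0 (M₀.nd R₀ hR₀)
  regi := by
    rw [← Set.image_union]
    refine lift_reg H M₀.unifi hi M₀.consti ?_ M₀.regi
    rintro R₀ (hR₀ | hR₀)
    · exact ⟨(M₀.smi R₀ hR₀).isPt, (M₀.smi R₀ hR₀).thr.le⟩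
    · exact ⟨(M₀.nd R₀ hR₀).isPt, (M₀.nd R₀ hR₀).thri.le⟩
  reg0 := by
    rw [← Set.image_union]
    refine lift_reg H M₀.unif0 h0 M₀.const0 ?_ M₀.reg0
    rintro R₀ (hR₀ | hR₀)
    · exact ⟨(M₀.sm0 R₀ hR₀).isPt, (M₀.sm0 R₀ hR₀).thr.le⟩
    · exact ⟨(M₀.nd R₀ hR₀).isPt, (M₀.nd R₀ hR₀).thr0.le⟩

end Fermat.Agent.S44.Depth

end
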